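/-
M59 / Sink B / cell [RIGID-T] (helper7), file 3: THE LANDEN TRANSFORMATION AND THE KUMMER
GENERATOR of the Legendre field `lg_E k M` over `φ (lg_F k M)` for `4 ∣ M`.
Tag `m59rt_`.  Namespace `Fermat.Agent.M59`.

`k` a field with `2 ≠ 0`, `λ = hm_lam k`, `Λ = φ λ = λ(q²)`:
* `m59rt_landen`  : `16 (1 - λ) Λ = λ² (1 - Λ)²`        (from `hm_t4_id_a`, `hm_t4_id_b`, `hm_lam_mul`);
* `m59rt_s`       : `s = λ (1 + Λ) / (4 - 2 λ)`, `m59rt_s_sq : s² = Λ`,
                    `m59rt_s_lam : λ (1 + Λ + 2 s) = 4 s`;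
* `m59rt_lamF`    : `λ ∈ lg_F k M` for `4 ∣ M`;  `m59rt_sE : lg_E k M`;
* `m59rt_hgen`    : every `z ∈ lg_E k M` is `φ x + φ y · s` with `x, y ∈ lg_F k M`.
-/
import Mathlib
import Fermat.Agent.SS.Model.F4K
import Fermat.Agent.JT3.Inst.Key0

set_option autoImplicit false
set_option linter.unusedSectionVars false
set_option linter.unusedVariables false

noncomputable section

namespace Fermat.Agent.M59

open ModularCurve IntermediateField
open Fermat.Agent.S28 Fermat.Agent.JT3 Fermat.Agent.SS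

/-! ### pure algebra -/

theorem m59rt_alg_landen {Ω : Type*} [Field Ω] (l Lm x X t : Ω) (h2 : (2 : Ω) ≠ 0)
    (hl : l * x = 16) (hL : Lm * X = 16) (ha : t * X = (X - 16) ^ 2) (hb : t = (x - 16) * x) :
    16 * (1 - l) * Lm = l ^ 2 * (1 - Lm) ^ 2 := by
  have h256 : (256 : Ω) ≠ 0 := by
    have : (256 : Ω) = 2 ^ 8 := by norm_num
    rw [this]; exact pow_ne_zero 8 h2
  have hE : (x - 16) * x * X = (X - 16) ^ 2 := by rw [← hb]; exact ha
  have e : l ^ 2 * Lm ^ 2 * ((x - 16) * x * X) = l ^ 2 * Lm ^ 2 * (X - 16) ^ 2 := by rw [hE]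
  have e1 : l ^ 2 * Lm ^ 2 * ((x - 16) * x * X) =
      ((l * x) * (l * x - 16 * l)) * (Lm * (Lm * X)) := by
    ring
  have e2 : l ^ 2 * Lm ^ 2 * (X - 16) ^ 2 = l ^ 2 * (Lm * X - 16 * Lm) ^ 2 := by ring
  rw [e1, e2, hl, hL] at e
  have : 256 * (16 * (1 - l) * Lm) = 256 * (l ^ 2 * (1 - Lm) ^ 2) := by linear_combination e
  exact mul_left_cancel₀ h256 this

theorem m59rt_alg_s_sq {Ω : Type*} [Field Ω] (l Lm : Ω) (hd : 4 - 2 * l ≠ 0)
    (hlan : 16 * (1 - l) * Lm = l ^ 2 * (1 - Lm) ^ 2) :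
    (l * (1 + Lm) / (4 - 2 * l)) ^ 2 = Lm := by
  rw [div_pow, div_eq_iff (pow_ne_zero 2 hd)]
  linear_combination (-1 : Ω) * hlan

theorem m59rt_alg_s_lam {Ω : Type*} [Field Ω] (l Lm : Ω) (hd : 4 - 2 * l ≠ 0) :
    l * (1 + Lm + 2 * (l * (1 + Lm) / (4 - 2 * l))) = 4 * (l * (1 + Lm) / (4 - 2 * l)) := by
  have hs : l * (1 + Lm) / (4 - 2 * l) * (4 - 2 * l) = l * (1 + Lm) := div_mul_cancel₀ _ hd
  linear_combination (-1 : Ω) * hs

/-! ### the series -/

section Series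

variable (k : Type*) [Field k]

/-- `Λ = λ(q²)`. -/
def m59rt_Lam : LaurentSeries k := lg_phi k (lg_lam k)

/-- the Kummer generator `s = λ (1 + Λ) / (4 - 2 λ)`. -/
def m59rt_s : LaurentSeries k := lg_lam k * (1 + m59rt_Lam k) / (4 - 2 * lg_lam k)

variable {k}

theorem m59rt_two_ne_zero (h2 : (2 : k) ≠ 0) : (2 : LaurentSeries k) ≠ 0 := by
  rw [← map_ofNat (HahnSeries.C : k →+* LaurentSeries k) 2]
  exact (map_ne_zero _).2 h2

theorem m59rt_sixteen_ne_zero (h2 : (2 : k) ≠ 0) : (16 : k) ≠ 0 := by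
  have : (16 : k) = 2 ^ 4 := by norm_num
  rw [this]; exact pow_ne_zero 4 h2

theorem m59rt_lam_order (h2 : (2 : k) ≠ 0) : (lg_lam k).order = 1 :=
  hm_lam_order k (m59rt_sixteen_ne_zero h2)

theorem m59rt_lam_ne_zero (h2 : (2 : k) ≠ 0) : lg_lam k ≠ 0 := by
  intro h
  have := m59rt_lam_order h2
  rw [h, HahnSeries.order_zero] at this
  exact zero_ne_one this

theorem m59rt_den_ne_zero (h2 : (2 : k) ≠ 0) : (4 : LaurentSeries k) - 2 * lg_lam k ≠ 0 := by
  intro h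
  have h4 : (4 : LaurentSeries k) = 2 * 2 := by norm_num
  have h1 : (2 : LaurentSeries k) * (2 - lg_lam k) = 0 := by rw [← h]; rw [h4]; ring
  have h3 : lg_lam k = 2 := by
    rcases mul_eq_zero.1 h1 with h | h
    · exact absurd h (m59rt_two_ne_zero h2)
    · exact (sub_eq_zero.1 h).symm
  have ho := m59rt_lam_order h2
  rw [h3, ← map_ofNat (HahnSeries.C : k →+* LaurentSeries k) 2, HahnSeries.order_C] at ho
  exact zero_ne_one ho

/-- **the Landen transformation** `16 (1 - λ) Λ = λ² (1 - Λ)²`. -/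
theorem m59rt_landen (h2 : (2 : k) ≠ 0) :
    16 * (1 - lg_lam k) * m59rt_Lam k = lg_lam k ^ 2 * (1 - m59rt_Lam k) ^ 2 := by
  have ha := congrArg (lg_phi k) (hm_t4_id_a k)
  have hL := congrArg (lg_phi k) (hm_lam_mul k)
  simp only [map_mul, map_add, map_pow, map_ofNat] at ha hL
  refine m59rt_alg_landen (lg_lam k) (m59rt_Lam k) (hm_t4 k + 16) (lg_phi k (hm_t4 k) + 16)
    (hm_t2two k) (m59rt_two_ne_zero h2) (hm_lam_mul k) hL ?_ ?_
  · rw [add_sub_cancel_right]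
    exact ha
  · rw [add_sub_cancel_right]
    exact hm_t4_id_b k

theorem m59rt_s_sq (h2 : (2 : k) ≠ 0) : m59rt_s k ^ 2 = m59rt_Lam k :=
  m59rt_alg_s_sq _ _ (m59rt_den_ne_zero h2) (m59rt_landen h2)

theorem m59rt_s_lam (h2 : (2 : k) ≠ 0) :
    lg_lam k * (1 + m59rt_Lam k + 2 * m59rt_s k) = 4 * m59rt_s k :=
  m59rt_alg_s_lam _ _ (m59rt_den_ne_zero h2)

end Series

/-! ### the Legendre field as a Kummer extension of `φ (lg_F k M)` -/

section Gen

variable {k : Type*} [Field k] (M : ℕ) [NeZero M]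

theorem m59rt_lam_mem_F (h4 : 4 ∣ M) : lg_lam k ∈ lg_F k M :=
  full_degeneracyC_le k h4 (ssm_f4_lam_mem_F4 k)

/-- `λ` as an element of `lg_F k M` (`4 ∣ M`). -/
def m59rt_lamF (h4 : 4 ∣ M) : ↥(lg_F k M) := ⟨lg_lam k, m59rt_lam_mem_F M h4⟩

theorem m59rt_Lam_mem_E (h4 : 4 ∣ M) : m59rt_Lam k ∈ lg_E k M :=
  lg_phi_mem_E k M (m59rt_lam_mem_F M h4)

theorem m59rt_s_mem_E (h4 : 4 ∣ M) : m59rt_s k ∈ lg_E k M := by
  have hlam : lg_lam k ∈ lg_E k M := lg_lam_mem_E k M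
  have hn : ∀ n : ℕ, (n : LaurentSeries k) ∈ lg_E k M := fun n => _root_.natCast_mem _ n
  have h4' : (4 : LaurentSeries k) ∈ lg_E k M := by exact_mod_cast hn 4
  have h2' : (2 : LaurentSeries k) ∈ lg_E k M := by exact_mod_cast hn 2
  exact div_mem (mul_mem hlam (add_mem (one_mem _) (m59rt_Lam_mem_E M h4)))
    (sub_mem h4' (mul_mem h2' hlam))

/-- the Kummer generator as an element of `lg_E k M`. -/
def m59rt_sE (h4 : 4 ∣ M) : ↥(lg_E k M) := ⟨m59rt_s k, m59rt_s_mem_E M h4⟩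

theorem m59rt_sE_sq (h2 : (2 : k) ≠ 0) (h4 : 4 ∣ M) :
    m59rt_sE M h4 ^ 2 = lg_phiE (L := k) (N := M) (m59rt_lamF M h4) :=
  Subtype.ext (m59rt_s_sq h2)

/-- `x² = λ y²` has only the trivial solution in `k((q))` (parity of the order). -/
theorem m59rt_norm_ne_zero (h2 : (2 : k) ≠ 0) {x y : LaurentSeries k}
    (h : x ^ 2 - lg_lam k * y ^ 2 = 0) : x = 0 ∧ y = 0 := by
  by_cases hy : y = 0
  · subst hy
    refine ⟨?_, rfl⟩
    have : x ^ 2 = 0 := by simpa using h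
    exact pow_eq_zero_iff (two_ne_zero) |>.1 this
  · exfalso
    have hl0 := m59rt_lam_ne_zero h2
    have hx : x ≠ 0 := by
      rintro rfl
      have : lg_lam k * y ^ 2 = 0 := by
        have := h
        rw [zero_pow two_ne_zero, zero_sub, neg_eq_zero] at this
        exact this
      rcases mul_eq_zero.1 this with h1 | h1
      · exact hl0 h1
      · exact hy (pow_eq_zero_iff two_ne_zero |>.1 h1)
    have e : x * x = lg_lam k * (y * y) := by
      have := sub_eq_zero.1 h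
      rw [pow_two, pow_two] at this
      exact this
    have o := congrArg HahnSeries.order e
    rw [HahnSeries.order_mul hx hx, HahnSeries.order_mul hl0 (mul_ne_zero hy hy),
      HahnSeries.order_mul hy hy, m59rt_lam_order h2] at o
    omega

/-- the set `φ (lg_F k M) + φ (lg_F k M) · s` as an intermediate field. -/
def m59rt_S (h2 : (2 : k) ≠ 0) (h4 : 4 ∣ M) : IntermediateField k (LaurentSeries k) where
  carrier := {z | ∃ x ∈ lg_F k M, ∃ y ∈ lg_F k M, z = lg_phi k x + lg_phi k y * m59rt_s k}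
  mul_mem' := by
    rintro _ _ ⟨x, hx, y, hy, rfl⟩ ⟨x', hx', y', hy', rfl⟩
    have hl := m59rt_lam_mem_F (k := k) M h4
    refine ⟨x * x' + lg_lam k * (y * y'), add_mem (mul_mem hx hx') (mul_mem hl (mul_mem hy hy')),
      x * y' + y * x', add_mem (mul_mem hx hy') (mul_mem hy hx'), ?_⟩
    have hs := m59rt_s_sq (k := k) h2
    rw [m59rt_Lam] at hs
    simp only [map_add, map_mul]
    linear_combination (lg_phi k y * lg_phi k y') * hs
  one_mem' := ⟨1, one_mem _, 0, zero_mem _, by simp⟩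
  add_mem' := by
    rintro _ _ ⟨x, hx, y, hy, rfl⟩ ⟨x', hx', y', hy', rfl⟩
    refine ⟨x + x', add_mem hx hx', y + y', add_mem hy hy', ?_⟩
    simp only [map_add]
    ring
  zero_mem' := ⟨0, zero_mem _, 0, zero_mem _, by simp⟩
  algebraMap_mem' := fun c => ⟨algebraMap k _ c, IntermediateField.algebraMap_mem _ c, 0, zero_mem _, by simp⟩
  inv_mem' := by
    rintro _ ⟨x, hx, y, hy, rfl⟩
    have hl := m59rt_lam_mem_F (k := k) M h4
    have hs := m59rt_s_sq (k := k) h2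
    rw [m59rt_Lam] at hs
    by_cases hz : lg_phi k x + lg_phi k y * m59rt_s k = 0
    · rw [hz, inv_zero]
      exact ⟨0, zero_mem _, 0, zero_mem _, by simp⟩
    · have hn : x ^ 2 - lg_lam k * y ^ 2 ≠ 0 := by
        intro h0
        obtain ⟨rfl, rfl⟩ := m59rt_norm_ne_zero h2 h0
        exact hz (by simp)
      have hnF : x ^ 2 - lg_lam k * y ^ 2 ∈ lg_F k M :=
        sub_mem (pow_mem hx 2) (mul_mem hl (pow_mem hy 2))
      refine ⟨x / (x ^ 2 - lg_lam k * y ^ 2), div_mem hx hnF,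
        -y / (x ^ 2 - lg_lam k * y ^ 2), div_mem (neg_mem hy) hnF, ?_⟩
      apply inv_eq_of_mul_eq_one_right
      have hφn : lg_phi k (x ^ 2 - lg_lam k * y ^ 2) ≠ 0 :=
        (map_ne_zero (lg_phi k).toRingHom).2 hn
      have e : lg_phi k (x ^ 2 - lg_lam k * y ^ 2) =
          lg_phi k x ^ 2 - lg_phi k (lg_lam k) * lg_phi k y ^ 2 := by
        simp only [map_sub, map_mul, map_pow]
      simp only [map_div₀, map_neg]
      rw [div_mul_eq_mul_div, ← add_div, mul_div_assoc', div_eq_one_iff_eq hφn, e]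
      linear_combination (-(lg_phi k y ^ 2)) * hs

theorem m59rt_mem_S (h2 : (2 : k) ≠ 0) (h4 : 4 ∣ M) {z : LaurentSeries k} :
    z ∈ m59rt_S M h2 h4 ↔
      ∃ x ∈ lg_F k M, ∃ y ∈ lg_F k M, z = lg_phi k x + lg_phi k y * m59rt_s k := Iff.rfl

theorem m59rt_E_le_S (h2 : (2 : k) ≠ 0) (h4 : 4 ∣ M) : lg_E k M ≤ m59rt_S M h2 h4 := by
  have hsS : m59rt_s k ∈ m59rt_S M h2 h4 :=
    ⟨0, zero_mem _, 1, one_mem _, by simp⟩
  have hF2 : lg_F2 k M ≤ m59rt_S M h2 h4 := by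
    rintro _ ⟨x, hx, rfl⟩
    exact ⟨x, hx, 0, zero_mem _, by simp⟩
  refine sup_le hF2 ?_
  rw [lg_K, IntermediateField.adjoin_simple_le_iff]
  -- `λ = 4 s / (1 + Λ + 2 s)`
  have hLam : m59rt_Lam k ∈ m59rt_S M h2 h4 :=
    hF2 (lg_phi_mem_F2 k M (m59rt_lam_mem_F M h4))
  have hn : ∀ n : ℕ, (n : LaurentSeries k) ∈ m59rt_S M h2 h4 := fun n => _root_.natCast_mem _ n
  have h4' : (4 : LaurentSeries k) ∈ m59rt_S M h2 h4 := by exact_mod_cast hn 4
  have h2' : (2 : LaurentSeries k) ∈ m59rt_S M h2 h4 := by exact_mod_cast hn 2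
  have hsl := m59rt_s_lam (k := k) h2
  have hd : 1 + m59rt_Lam k + 2 * m59rt_s k ≠ 0 := by
    intro h0
    rw [h0, mul_zero] at hsl
    have hs0 : m59rt_s k = 0 := by
      have h40 : (4 : LaurentSeries k) ≠ 0 := by
        have : (4 : LaurentSeries k) = 2 * 2 := by norm_num
        rw [this]
        exact mul_ne_zero (m59rt_two_ne_zero h2) (m59rt_two_ne_zero h2)
      exact (mul_eq_zero.1 hsl.symm).resolve_left h40
    have hL0 : m59rt_Lam k = 0 := by rw [← m59rt_s_sq h2, hs0]; simp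
    rw [hs0, hL0] at h0
    simp at h0
  have : lg_lam k = 4 * m59rt_s k / (1 + m59rt_Lam k + 2 * m59rt_s k) := by
    rw [eq_div_iff hd]; exact hsl
  rw [this]
  exact div_mem (mul_mem h4' hsS) (add_mem (add_mem (one_mem _) hLam) (mul_mem h2' hsS))

/-- **every element of `lg_E k M` is `φ x + φ y · s`** (`4 ∣ M`, `2 ≠ 0`). -/
theorem m59rt_hgen (h2 : (2 : k) ≠ 0) (h4 : 4 ∣ M) (z : ↥(lg_E k M)) :
    ∃ x y : ↥(lg_F k M),
      z = lg_phiE (L := k) (N := M) x + lg_phiE (L := k) (N := M) y * m59rt_sE M h4 := by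
  obtain ⟨x, hx, y, hy, hz⟩ := m59rt_E_le_S M h2 h4 z.2
  exact ⟨⟨x, hx⟩, ⟨y, hy⟩, Subtype.ext hz⟩

end Gen

end Fermat.Agent.M59
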