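/-
M59 / Sink B / ADAPTER from [RIGID-T] + [MASS-ineq] to the cell `m59sb_Mass` of the abstract frame
(`M59/SinkB/Frame.lean`, helper15).  helper7.  Tag `m59rt_`.  Namespace `Fermat.Agent.M59`.

* `m59rt_finrank_hom`   : `rank_R Hom(G, R) = rank_ℤ G` for `G` free of finite rank;
* `m59rt_finrank_tj`    : `rank_{ℤ_p} T_p J₀(N) = 2 g(N)`   (`tji_lattice`, `gh_finrank_genus`);
* `m59rt_mass_frame`    : `4 ∣ N'`, `q` odd, `q ∤ N'`, `rank T_p A1 + 1 ≤ #Sg`  ⟹  `m59sb_Mass N' q p A1`;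
* `m59rt_order_U`       : the series `Δ̄(q)/Δ̄(q^p)` has order EXACTLY `1 - p` over any field;
* `m59rt_nonempty_Sg`   : for `4 ∣ M` there IS a supersingular place;
* `m59rt_SumZero S G`   : the sum-zero functions `S → G`;  `m59rt_finrank_sumZero` : if
  `#G[p^n] = p^n` for all `n`, then `T_p (m59rt_SumZero S G)` is free of rank `#S - 1`;
* `m59rt_mass_sumZero`  : `m59sb_Mass N' q p (m59rt_SumZero Sg G)`.
-/
import Mathlib
import Fermat.Agent.M59.SinkB.Frame
import Fermat.Agent.M59.SinkB.RigidT.Mass4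
import Fermat.Agent.JT3.Gateway.HomologyFree
import Fermat.Agent.JT3.Gateway.Homology
import Fermat.Agent.JT3.Tate.Free

set_option autoImplicit false
set_option linter.unusedSectionVars false
set_option linter.style.haveILetI false
set_option linter.unusedVariables false

noncomputable section

namespace Fermat.Agent.M59

open Module Polynomial ModularCurve AlgebraicCurve IntermediateField IsLocalRing
open Fermat.Agent.JT3 Fermat.Agent.SS Fermat.Agent.S24 Fermat.Agent.S44 Fermat.Agent.MZ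

local notation "Qb" => AlgebraicClosure ℚ

/-! ### ranks of Tate modules -/

theorem m59rt_finrank_hom (G : Type*) [AddCommGroup G] [Module.Free ℤ G] [Module.Finite ℤ G]
    (R : Type*) [CommRing R] [Nontrivial R] :
    finrank R (G →+ R) = finrank ℤ G := by
  classical
  let b := Module.Free.chooseBasis ℤ G
  have e1 : (G →+ R) ≃ₗ[R] (G →ₗ[ℤ] R) := addMonoidHomLequivInt R
  have e2 : (Module.Free.ChooseBasisIndex ℤ G → R) ≃ₗ[R] (G →ₗ[ℤ] R) := b.constr R
  rw [e1.finrank_eq, ← e2.finrank_eq, Module.finrank_pi, Module.finrank_eq_card_chooseBasisIndex]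

/-- **`rank T_p J₀(N) = 2 g(N)`.** -/
theorem m59rt_finrank_tj (N : ℕ) [NeZero N] (p : ℕ) [hp : Fact p.Prime] :
    (finrank ℤ_[p] (tj_T N p) : ℚ) = 2 * genusFormula N := by
  have : Module.Finite ℤ (gh_H N) := Module.Finite.iff_addGroup_fg.2 inferInstance
  rw [(tji_lattice N p).finrank_eq, m59rt_finrank_hom (gh_H N) ℤ_[p], gh_finrank_genus N]

/-- **the cell `m59sb_Mass` of the Sink B frame** from a rank bound on the toric data. -/
theorem m59rt_mass_frame (A : ValuationSubring Qb) {q : ℕ} [hq : Fact q.Prime]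
    (hA : A.LiesOverPrime q) (N' : ℕ) [NeZero N'] [NeZero q] [NeZero (N' * q)] (hqN' : ¬ q ∣ N')
    (hq2 : ¬ 2 ∣ q) (h4 : 4 ∣ N') (p : ℕ) [hp : Fact p.Prime] (A1 : Type) [AddCommGroup A1]
    (hA1 : finrank ℤ_[p] (tm_T A1 p) + 1 ≤ Nat.card (s44e_Sg A N' q hq.out hqN')) :
    m59sb_Mass N' q p A1 := by
  have h1 := m59rt_mass_four A hA N' hqN' hq2 h4
  have h2 := m59rt_finrank_tj N' p
  have h3 := m59rt_finrank_tj (N' * q) p
  have h4' : ((finrank ℤ_[p] (tm_T A1 p) + 1 : ℕ) : ℚ) ≤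
      (Nat.card (s44e_Sg A N' q hq.out hqN') : ℚ) := by exact_mod_cast hA1
  push_cast at h4'
  have h5 : ((2 * finrank ℤ_[p] (tm_T A1 p) + 2 * finrank ℤ_[p] (tj_T N' p) : ℕ) : ℚ) ≤
      ((finrank ℤ_[p] (tj_T (N' * q) p) : ℕ) : ℚ) := by
    push_cast
    rw [h2, h3]
    linarith
  unfold m59sb_Mass
  exact_mod_cast h5

/-! ### there is a supersingular place -/

section OrderU

variable (k : Type*) [Field k] (p : ℕ) [NeZero p]

theorem m59rt_coeff_U_int : (mzb_qi_U ℤ p).coeff (1 - (p : ℤ)) = 1 := by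
  have h1 : coeffMap (Int.castRingHom ℚ) (mzb_qi_U ℤ p) = modularUnitSeries p := by
    rw [mzb_qi_coeffMap_U, mzb_qi_U_rat]
  have h2 := congrArg (fun x : LaurentSeries ℚ => x.coeff (1 - (p : ℤ))) h1
  simp only [coeffMap_coeff, coeff_modularUnitSeries_self p] at h2
  have h3 : (((mzb_qi_U ℤ p).coeff (1 - (p : ℤ)) : ℤ) : ℚ) = 1 := h2
  exact_mod_cast h3

theorem m59rt_coeff_U : (mzb_qi_U k p).coeff (1 - (p : ℤ)) = 1 := by
  rw [← mzb_qi_coeffMap_U (Int.castRingHom k) p, coeffMap_coeff, m59rt_coeff_U_int p, map_one]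

/-- the order of `Δ(q)/Δ(q^p)` is exactly `1 - p`. -/
theorem m59rt_order_U : (mzb_qi_U k p).order = 1 - (p : ℤ) := by
  apply le_antisymm
  · exact HahnSeries.order_le_of_coeff_ne_zero (by rw [m59rt_coeff_U]; exact one_ne_zero)
  · exact m59ms_order_U k p

end OrderU

section Nonempty

variable (A : ValuationSubring Qb) {q : ℕ} [hq : Fact q.Prime] (hA : A.LiesOverPrime q)
  (M : ℕ) [NeZero M] [NeZero q] [NeZero (M * q)] (hqM : ¬ q ∣ M) (hq2 : ¬ 2 ∣ q)

include hA hqM hq2 in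
/-- **for `4 ∣ M` there is a supersingular place.** -/
theorem m59rt_nonempty_Sg (h4 : 4 ∣ M) : Nonempty (s44e_Sg A M q hq.out hqM) := by
  classical
  haveI := jcr_charP A hA
  haveI := jcr_isAlgClosed A
  have hsep := m59ms_sepGen A hA M hqM
  have hT := m59rt_rigid A hA M hqM hq2 h4
  obtain ⟨c0, hc0⟩ := ssm_cf_exists_xplace (s44e_FF A M)
    (jqModC_mem_full (s44e_kA A) M) (jcr_order_jq (k := s44e_kA A))
  have hc0u : c0.ord (s44e_ubar A M q) = 1 - (q : ℤ) := by
    rw [hc0, s44e_ubar_coe A hA M hqM]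
    exact m59rt_order_U (ResidueField ↥A) q
  have hq3 : 2 ≤ q := hq.out.two_le
  have hut : Transcendental (s44e_kA A) (s44e_ubar A M q) :=
    rt_transcendental_of_ord_ne_zero (v := c0) (by rw [hc0u]; omega)
  have hu0 : s44e_ubar A M q ≠ 0 := fun h => hut (h ▸ isAlgebraic_zero)
  obtain ⟨v, hv⟩ := m59ms_exists_zero hsep hut
  obtain ⟨P, hP, hPu⟩ := m59ms_exists_poly hsep (m59ms_ubar_mem A hA M hqM) hu0
    (m59ms_ubar_reg A hA M hqM hq2 hT)
  have hjv : jcr_j (k := s44e_kA A) M ∈ v.toValuationSubring := by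
    by_contra hj
    have hj0 : jcr_j (k := s44e_kA A) M ≠ 0 := fun h => hj (h ▸ v.toValuationSubring.zero_mem)
    have hneg : v.ord (jcr_j (k := s44e_kA A) M) < 0 := by
      by_contra hge
      exact hj ((hw_mem_iff_ord_nonneg v hj0).2 (by omega))
    obtain ⟨-, hord⟩ := m59ms_ord_aeval_pole v hneg hP
    rw [hPu] at hord
    have : (P.natDegree : ℤ) * v.ord (jcr_j (k := s44e_kA A) M) ≤ 0 :=
      mul_nonpos_of_nonneg_of_nonpos (Int.natCast_nonneg _) hneg.le
    omega
  have hss : s44e_IsSS A M q hq.out hqM v := by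
    by_contra hns
    have := (s44udm_udiv A hA M hqM hq2 v hjv).2 hns
    omega
  exact ⟨⟨v, hss⟩⟩

end Nonempty

/-! ### the sum-zero functions -/

section SumZero

variable (S : Type) [Fintype S] [DecidableEq S] (G : Type) [AddCommGroup G]

/-- the functions `S → G` with sum zero. -/
def m59rt_SumZero : AddSubgroup (S → G) where
  carrier := {a | ∑ s, a s = 0}
  zero_mem' := by simp
  add_mem' := fun {a b} ha hb => by
    show ∑ s, (a + b) s = 0
    simp only [Pi.add_apply, Finset.sum_add_distrib]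
    rw [show ∑ s, a s = 0 from ha, show ∑ s, b s = 0 from hb, add_zero]
  neg_mem' := fun {a} ha => by
    show ∑ s, (-a) s = 0
    simp only [Pi.neg_apply, Finset.sum_neg_distrib]
    rw [show ∑ s, a s = 0 from ha, neg_zero]

variable {S G}

theorem m59rt_mem_sumZero {a : S → G} : a ∈ m59rt_SumZero S G ↔ ∑ s, a s = 0 := Iff.rfl

/-- forgetting the value at `s0`. -/
def m59rt_sumZeroEquiv (s0 : S) : ↥(m59rt_SumZero S G) ≃+ ({s : S // s ≠ s0} → G) where
  toFun a := fun t => a.1 t.1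
  invFun f := ⟨fun s => if h : s = s0 then -∑ t, f t else f ⟨s, h⟩, by
    show ∑ s, (if h : s = s0 then -∑ t, f t else f ⟨s, h⟩) = 0
    rw [Fintype.sum_eq_add_sum_subtype_ne _ s0, dif_pos rfl]
    have : ∀ t : {s : S // s ≠ s0}, (if h : t.1 = s0 then -∑ t, f t else f ⟨t.1, h⟩) = f t :=
      fun t => by rw [dif_neg t.2]
    simp only [this]
    exact neg_add_cancel _⟩
  left_inv a := by
    apply Subtype.ext
    funext s
    by_cases h : s = s0
    · subst h
      show (if h : s = s then -∑ t : {t : S // t ≠ s}, a.1 t.1 else a.1 s) = a.1 s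
      rw [dif_pos rfl]
      have h0 : ∑ t, a.1 t = 0 := a.2
      rw [Fintype.sum_eq_add_sum_subtype_ne _ s] at h0
      exact (neg_eq_of_add_eq_zero_left h0)
    · show (if h : s = s0 then -∑ t : {t : S // t ≠ s0}, a.1 t.1 else a.1 s) = a.1 s
      rw [dif_neg h]
  right_inv f := by
    funext t
    show (if h : t.1 = s0 then -∑ t, f t else f ⟨t.1, h⟩) = f t
    rw [dif_neg t.2]
  map_add' a b := rfl

theorem m59rt_card_tors_pi (T : Type) [Fintype T] (p : ℕ)
    (hG : ∀ n, Nat.card {g : G // p ^ n • g = 0} = p ^ n) (n : ℕ) :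
    Nat.card {x : T → G // p ^ n • x = 0} = p ^ (Fintype.card T * n) := by
  have e : {x : T → G // p ^ n • x = 0} ≃ (T → {g : G // p ^ n • g = 0}) :=
    (Equiv.subtypeEquivRight (fun x => by
      rw [funext_iff]; rfl)).trans
      (Equiv.subtypePiEquivPi (p := fun _ g => p ^ n • g = 0))
  rw [Nat.card_congr e, Nat.card_pi, Finset.prod_const, hG n, Finset.card_univ, ← pow_mul,
    mul_comm]

theorem m59rt_card_tors_sumZero (s0 : S) (p : ℕ)
    (hG : ∀ n, Nat.card {g : G // p ^ n • g = 0} = p ^ n) (n : ℕ) :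
    Nat.card {x : ↥(m59rt_SumZero S G) // p ^ n • x = 0} =
      p ^ ((Fintype.card S - 1) * n) := by
  have e : {x : ↥(m59rt_SumZero S G) // p ^ n • x = 0} ≃
      {y : {s : S // s ≠ s0} → G // p ^ n • y = 0} :=
    (m59rt_sumZeroEquiv s0).toEquiv.subtypeEquiv (fun x => by
      show p ^ n • x = 0 ↔ p ^ n • (m59rt_sumZeroEquiv s0 x) = 0
      rw [← map_nsmul, map_eq_zero_iff _ (m59rt_sumZeroEquiv s0).injective])
  rw [Nat.card_congr e, m59rt_card_tors_pi _ p hG n, Fintype.card_subtype_compl,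
    Fintype.card_subtype_eq]

/-- **the Tate module of the sum-zero functions `S → G`** (`G` with `#G[p^n] = p^n`) is free of rank
`#S - 1`. -/
theorem m59rt_finrank_sumZero (s0 : S) (p : ℕ) [hp : Fact p.Prime]
    (hG : ∀ n, Nat.card {g : G // p ^ n • g = 0} = p ^ n) :
    Module.Free ℤ_[p] (tm_T ↥(m59rt_SumZero S G) p) ∧
      Module.Finite ℤ_[p] (tm_T ↥(m59rt_SumZero S G) p) ∧
      finrank ℤ_[p] (tm_T ↥(m59rt_SumZero S G) p) = Fintype.card S - 1 :=
  tm_free (Fintype.card S - 1) (m59rt_card_tors_sumZero s0 p hG)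

end SumZero

/-! ### the cell `m59sb_Mass` for the sum-zero functions on the supersingular places -/

section MassSumZero

variable (A : ValuationSubring Qb) {q : ℕ} [hq : Fact q.Prime] (hA : A.LiesOverPrime q)
  (N' : ℕ) [NeZero N'] [NeZero q] [NeZero (N' * q)] (hqN' : ¬ q ∣ N') (hq2 : ¬ 2 ∣ q)

include hA hq2 in
/-- **`m59sb_Mass` for `A1 = ` sum-zero functions on the supersingular places with values in `G`**,
`#G[p^n] = p^n` (`4 ∣ N'`, `q` odd, `q ∤ N'`; any `Fintype`/`DecidableEq` structure on `Sg`). -/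
theorem m59rt_mass_sumZero (h4 : 4 ∣ N') (p : ℕ) [hp : Fact p.Prime]
    [Fintype (s44e_Sg A N' q hq.out hqN')] [DecidableEq (s44e_Sg A N' q hq.out hqN')]
    (G : Type) [AddCommGroup G] (hG : ∀ n, Nat.card {g : G // p ^ n • g = 0} = p ^ n) :
    m59sb_Mass N' q p ↥(m59rt_SumZero (s44e_Sg A N' q hq.out hqN') G) := by
  obtain ⟨s0⟩ := m59rt_nonempty_Sg A hA N' hqN' hq2 h4
  refine m59rt_mass_frame A hA N' hqN' hq2 h4 p _ ?_
  rw [(m59rt_finrank_sumZero s0 p hG).2.2, Nat.card_eq_fintype_card]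
  have : 1 ≤ Fintype.card (s44e_Sg A N' q hq.out hqN') := Fintype.card_pos_iff.2 ⟨s0⟩
  omega

end MassSumZero

end Fermat.Agent.M59
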