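/-
M59 / Sink B, cell [RIGID-T], sub-cell (e) THE KUMMER LEMMA (helper18).  Prefix `m59rtk_`.
Mathlib only (the `Place` form is in `KummerPlace.lean`).

`ι : K →+* L` fields, `A ≤ K`, `B ≤ L` valuation subrings with `B ∩ ι K = ι A` (`hlie`).
`L = ι K + ι K · s` with `s² = ι a`, where `a ≡ c²` modulo the maximal ideal of `A` for a unit `c`
of `A`, and `2` is a unit of `A`.  Then `B / A` is UNRAMIFIED in the strongest sense: every nonzero
element of `L` has the `B`-valuation of an element of `ι K` (`m59rtk_core`): the value groups agree.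

Proof (elementwise): `(s - c)(s + c) = a - c² ∈ 𝔪_B`, so (changing the sign of `c`) `s ≡ c` modulo
`𝔪_B`.  Normalise `z = x + y s` so that `x, y ∈ A`, one of them `1`.  If `x + c y` is a unit of `A`,
`z ≡ x + c y` is a unit of `B`.  Otherwise `y` and `x - c y = (x + c y) - 2 c y` are units of `A`,
the conjugate `z' = x - y s ≡ x - c y` is a unit of `B`, and `z z' = x² - a y² ∈ ι K`.
-/
import Mathlib

set_option autoImplicit false
set_option linter.unusedSectionVars false

namespace Fermat.Agent.M59

section

variable {K L : Type*} [Field K] [Field L] (ι : K →+* L)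
  (A : ValuationSubring K) (B : ValuationSubring L)
  (hlie : ∀ x : K, ι x ∈ B ↔ x ∈ A)

include hlie

theorem m59rtk_le_one_iff (x : K) : B.valuation (ι x) ≤ 1 ↔ A.valuation x ≤ 1 := by
  rw [ValuationSubring.valuation_le_one_iff, ValuationSubring.valuation_le_one_iff]
  exact hlie x

theorem m59rtk_lt_one_iff (x : K) : B.valuation (ι x) < 1 ↔ A.valuation x < 1 := by
  rcases eq_or_ne x 0 with rfl | hx
  · simp
  · have hιx : ι x ≠ 0 := (map_ne_zero ι).mpr hx
    have h1 := m59rtk_le_one_iff ι A B hlie x⁻¹
    rw [map_inv₀, map_inv₀, map_inv₀] at h1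
    rw [← not_le, ← not_le, not_iff_not]
    have hB : 0 < B.valuation (ι x) := zero_lt_iff.mpr ((Valuation.ne_zero_iff _).mpr hιx)
    have hA : 0 < A.valuation x := zero_lt_iff.mpr ((Valuation.ne_zero_iff _).mpr hx)
    rw [inv_le_one₀ hB, inv_le_one₀ hA] at h1
    exact h1

theorem m59rtk_eq_one_iff (x : K) : B.valuation (ι x) = 1 ↔ A.valuation x = 1 := by
  have h1 := m59rtk_le_one_iff ι A B hlie x
  have h2 := m59rtk_lt_one_iff ι A B hlie x
  constructor
  · intro h
    exact le_antisymm (h1.1 h.le) (not_lt.mp fun hlt => (h2.2 hlt).ne h)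
  · intro h
    exact le_antisymm (h1.2 h.le) (not_lt.mp fun hlt => (h2.1 hlt).ne h)

variable (s : L) (a c : K) (hs : s * s = ι a) (hc : A.valuation c = 1)
  (h2 : A.valuation (2 : K) = 1) (hsc : B.valuation (s - ι c) < 1)

include hs hc h2 hsc

/-- the normalised case: `x, y ∈ A`, one of them a unit. -/
theorem m59rtk_norm (x y : K) (hx : A.valuation x ≤ 1) (hy : A.valuation y ≤ 1)
    (h1 : A.valuation x = 1 ∨ A.valuation y = 1) (hz : ι x + ι y * s ≠ 0) :
    ∃ t : K, t ≠ 0 ∧ B.valuation (ι x + ι y * s) = B.valuation (ι t) := by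
  have hιy : B.valuation (ι y) ≤ 1 := (m59rtk_le_one_iff ι A B hlie y).2 hy
  have hsmall : B.valuation (ι y * (s - ι c)) < 1 := by
    rw [map_mul]
    exact mul_lt_one_of_nonneg_of_lt_one_right hιy zero_le' hsc
  have hw : A.valuation (x + c * y) ≤ 1 := by
    refine le_trans (Valuation.map_add _ _ _) (max_le hx ?_)
    rw [map_mul, hc, one_mul]
    exact hy
  rcases hw.lt_or_eq with hwlt | hweq
  · -- `x + c y` is not a unit
    have hy1 : A.valuation y = 1 := by
      rcases hy.lt_or_eq with hylt | hyeq
      · exfalso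
        have hx1 : A.valuation x = 1 := h1.resolve_right hylt.ne
        have hcy : A.valuation (c * y) < 1 := by rw [map_mul, hc, one_mul]; exact hylt
        have : A.valuation x < 1 := by
          have e : x = (x + c * y) - c * y := by ring
          rw [e]
          exact lt_of_le_of_lt (Valuation.map_sub _ _ _) (max_lt hwlt hcy)
        exact this.ne hx1
      · exact hyeq
    have hu : A.valuation (x - c * y) = 1 := by
      have e : x - c * y = -(2 * c * y) + (x + c * y) := by ring
      have h2cy : A.valuation (-(2 * c * y)) = 1 := by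
        rw [Valuation.map_neg, map_mul, map_mul, h2, hc, hy1, one_mul, one_mul]
      rw [e, (A.valuation).map_add_eq_of_lt_left (by rw [h2cy]; exact hwlt), h2cy]
    -- the conjugate is a unit of `B`
    have hconj : B.valuation (ι x - ι y * s) = 1 := by
      have e : ι x - ι y * s = ι (x - c * y) + -(ι y * (s - ι c)) := by
        rw [map_sub, map_mul]; ring
      have hu' : B.valuation (ι (x - c * y)) = 1 := (m59rtk_eq_one_iff ι A B hlie _).2 hu
      rw [e, (B.valuation).map_add_eq_of_lt_left (by rw [Valuation.map_neg, hu']; exact hsmall), hu']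
    have hprod : (ι x + ι y * s) * (ι x - ι y * s) = ι (x * x - y * y * a) := by
      rw [map_sub, map_mul, map_mul, map_mul, ← hs]; ring
    refine ⟨x * x - y * y * a, ?_, ?_⟩
    · intro h0
      rw [h0, map_zero] at hprod
      rcases mul_eq_zero.mp hprod with h | h
      · exact hz h
      · rw [h, map_zero] at hconj
        exact zero_ne_one hconj
    · rw [← hprod, map_mul, hconj, mul_one]
  · -- `x + c y` is a unit
    refine ⟨1, one_ne_zero, ?_⟩
    have e : ι x + ι y * s = ι (x + c * y) + ι y * (s - ι c) := by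
      rw [map_add, map_mul]; ring
    have hu' : B.valuation (ι (x + c * y)) = 1 := (m59rtk_eq_one_iff ι A B hlie _).2 hweq
    rw [e, (B.valuation).map_add_eq_of_lt_left (by rw [hu']; exact hsmall), hu', map_one, map_one]

/-- the general case, for a fixed sign of `c`. -/
theorem m59rtk_core_signed (x y : K) (hz : ι x + ι y * s ≠ 0) :
    ∃ t : K, t ≠ 0 ∧ B.valuation (ι x + ι y * s) = B.valuation (ι t) := by
  by_cases hxy : A.valuation x ≤ A.valuation y
  · -- divide by `y`
    have hy0 : y ≠ 0 := by
      rintro rfl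
      have hx0 : x = 0 := by
        rw [map_zero, le_zero_iff, map_eq_zero] at hxy
        exact hxy
      apply hz
      rw [hx0, map_zero, zero_mul, add_zero]
    have hvy : A.valuation y ≠ 0 := (Valuation.ne_zero_iff _).mpr hy0
    have hx' : A.valuation (x / y) ≤ 1 := by
      rw [map_div₀]
      exact div_le_one_of_le₀ hxy zero_le'
    have h1' : A.valuation (1 : K) ≤ 1 := by rw [map_one]
    have e : ι x + ι y * s = ι y * (ι (x / y) + ι 1 * s) := by
      rw [map_div₀, map_one]
      field_simp [(map_ne_zero ι).mpr hy0]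
    have hz' : ι (x / y) + ι 1 * s ≠ 0 := by
      intro h
      apply hz
      rw [e, h, mul_zero]
    obtain ⟨t, ht0, ht⟩ := m59rtk_norm ι A B hlie s a c hs hc h2 hsc (x / y) 1 hx' h1'
      (Or.inr (map_one _)) hz'
    refine ⟨y * t, mul_ne_zero hy0 ht0, ?_⟩
    rw [e, map_mul, ht, map_mul, map_mul]
  · -- divide by `x`
    have hxy' : A.valuation y < A.valuation x := not_le.mp hxy
    have hx0 : x ≠ 0 := by
      rintro rfl
      rw [map_zero] at hxy'
      exact not_lt_zero' hxy'
    have hy' : A.valuation (y / x) ≤ 1 := by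
      rw [map_div₀]
      exact div_le_one_of_le₀ hxy'.le zero_le'
    have h1' : A.valuation (1 : K) ≤ 1 := by rw [map_one]
    have e : ι x + ι y * s = ι x * (ι 1 + ι (y / x) * s) := by
      rw [map_div₀, map_one]
      field_simp [(map_ne_zero ι).mpr hx0]
    have hz' : ι 1 + ι (y / x) * s ≠ 0 := by
      intro h
      apply hz
      rw [e, h, mul_zero]
    obtain ⟨t, ht0, ht⟩ := m59rtk_norm ι A B hlie s a c hs hc h2 hsc 1 (y / x) h1' hy'
      (Or.inl (map_one _)) hz'
    refine ⟨x * t, mul_ne_zero hx0 ht0, ?_⟩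
    rw [e, map_mul, ht, map_mul, map_mul]

end

section

variable {K L : Type*} [Field K] [Field L] (ι : K →+* L)
  (A : ValuationSubring K) (B : ValuationSubring L)
  (hlie : ∀ x : K, ι x ∈ B ↔ x ∈ A)

include hlie in
/-- **THE KUMMER LEMMA (value groups agree).**  `L = ι K + ι K · s`, `s² = ι a`, `a ≡ c²` modulo
`𝔪_A` with `c`, `2` units of `A`: every nonzero element of `L` has the `B`-valuation of an element
of `ι K`. -/
theorem m59rtk_core (s : L) (a c : K) (hs : s * s = ι a) (hc : A.valuation c = 1)
    (hac : A.valuation (a - c * c) < 1) (h2 : A.valuation (2 : K) = 1)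
    (x y : K) (hz : ι x + ι y * s ≠ 0) :
    ∃ t : K, t ≠ 0 ∧ B.valuation (ι x + ι y * s) = B.valuation (ι t) := by
  have hprod : (s - ι c) * (s + ι c) = ι (a - c * c) := by
    rw [map_sub, map_mul, ← hs]; ring
  have hlt : B.valuation ((s - ι c) * (s + ι c)) < 1 := by
    rw [hprod]
    exact (m59rtk_lt_one_iff ι A B hlie _).2 hac
  by_cases h : B.valuation (s - ι c) < 1
  · exact m59rtk_core_signed ι A B hlie s a c hs hc h2 h x y hz
  · have h' : B.valuation (s + ι c) < 1 := by
      by_contra hn
      rw [map_mul] at hlt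
      exact absurd hlt (not_lt.mpr (one_le_mul_of_one_le_of_one_le (not_lt.mp h) (not_lt.mp hn)))
    have hc' : A.valuation (-c) = 1 := by rw [Valuation.map_neg, hc]
    have hsc' : B.valuation (s - ι (-c)) < 1 := by
      rw [map_neg, sub_neg_eq_add]
      exact h'
    exact m59rtk_core_signed ι A B hlie s a (-c) hs hc' h2 hsc' x y hz

end

end Fermat.Agent.M59
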