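/-
M59 / Sink B, cell [RIGID-T], sub-cell (e) THE KUMMER LEMMA, `ord`-function form (helper18).
Prefix `m59rtk_`.  Mathlib only (on top of `Kummer.lean`).

The literal shape asked by the consumer (helper7, finding 5369): two plain `ℤ`-valued functions
`w : F → ℤ`, `v : κ → ℤ` (additive on nonzero elements, ultrametric), `φ : F →+* κ`,
`v (φ x) = T * w x`, `κ = φ F + φ F · s`, `s² = φ a`, `w a = 0`, `w 2 = 0`, `v` takes the value `1`.
Then `T = 1`.  NO hypothesis on the residue field: the inert case is inside the lemma.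

* CASE II: some unit `c` of `w` has `s ≡ φ c` modulo the maximal ideal of `v`
  (`m59rtk_core_signed` of `Kummer.lean`, for the valuation rings `{w ≥ 0}`, `{v ≥ 0}`): every
  value of `v` is a value of `v ∘ φ`.
* CASE I: no such `c` (for either sign): `v (φ x + φ y s) = T * min (w x) (w y)`.
In both cases `T ∣ v z` for all `z ≠ 0`, and `v z = 1` for some `z`.
-/
import Mathlib
import Fermat.Agent.M59.SinkB.RigidT.Kummer

set_option autoImplicit false
set_option linter.unusedSectionVars false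

namespace Fermat.Agent.M59

/-- `w : F → ℤ` is additive on nonzero elements and ultrametric. -/
structure m59rtk_IsOrd {F : Type*} [Field F] (w : F → ℤ) : Prop where
  mul : ∀ x y : F, x ≠ 0 → y ≠ 0 → w (x * y) = w x + w y
  add : ∀ x y : F, x ≠ 0 → y ≠ 0 → x + y ≠ 0 → min (w x) (w y) ≤ w (x + y)

namespace m59rtk_IsOrd

variable {F : Type*} [Field F] {w : F → ℤ} (h : m59rtk_IsOrd w)

include h

theorem one : w 1 = 0 := by
  have := h.mul 1 1 one_ne_zero one_ne_zero
  rw [mul_one] at this
  omega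

theorem neg_one : w (-1) = 0 := by
  have := h.mul (-1) (-1) (neg_ne_zero.mpr one_ne_zero) (neg_ne_zero.mpr one_ne_zero)
  rw [neg_mul_neg, mul_one, h.one] at this
  omega

theorem neg {x : F} (hx : x ≠ 0) : w (-x) = w x := by
  have := h.mul (-1) x (neg_ne_zero.mpr one_ne_zero) hx
  rw [neg_one_mul, h.neg_one, zero_add] at this
  exact this

theorem inv {x : F} (hx : x ≠ 0) : w x⁻¹ = - w x := by
  have := h.mul x x⁻¹ hx (inv_ne_zero hx)
  rw [mul_inv_cancel₀ hx, h.one] at this
  omega

theorem div {x y : F} (hx : x ≠ 0) (hy : y ≠ 0) : w (x / y) = w x - w y := by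
  rw [div_eq_mul_inv, h.mul x y⁻¹ hx (inv_ne_zero hy), h.inv hy]
  ring

/-- the strict triangle equality. -/
theorem add_eq_of_lt {x y : F} (hx : x ≠ 0) (hy : y ≠ 0) (hlt : w x < w y) :
    x + y ≠ 0 ∧ w (x + y) = w x := by
  have hxy : x + y ≠ 0 := by
    intro h0
    have : y = -x := by linear_combination h0
    rw [this, h.neg hx] at hlt
    exact lt_irrefl _ hlt
  refine ⟨hxy, ?_⟩
  have h1 := h.add x y hx hy hxy
  rw [min_eq_left hlt.le] at h1
  have h2 := h.add (x + y) (-y) hxy (neg_ne_zero.mpr hy) (by rw [add_neg_cancel_right]; exact hx)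
  rw [add_neg_cancel_right, h.neg hy] at h2
  rcases min_le_iff.mp h2 with h3 | h3
  · omega
  · omega

/-- the valuation ring `{w ≥ 0}`. -/
def vs : ValuationSubring F where
  carrier := {x | x = 0 ∨ 0 ≤ w x}
  mul_mem' := by
    rintro x y (rfl | hx) (rfl | hy)
    · left; simp
    · left; simp
    · left; simp
    · by_cases hx0 : x = 0
      · left; rw [hx0, zero_mul]
      by_cases hy0 : y = 0
      · left; rw [hy0, mul_zero]
      right
      rw [h.mul x y hx0 hy0]
      omega
  one_mem' := Or.inr (by rw [h.one])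
  add_mem' := by
    rintro x y hx hy
    by_cases hx0 : x = 0
    · rw [hx0, zero_add]; exact hy
    by_cases hy0 : y = 0
    · rw [hy0, add_zero]; exact hx
    by_cases hxy : x + y = 0
    · left; exact hxy
    right
    have h1 := h.add x y hx0 hy0 hxy
    have hx' : 0 ≤ w x := hx.resolve_left hx0
    have hy' : 0 ≤ w y := hy.resolve_left hy0
    exact le_trans (le_min hx' hy') h1
  zero_mem' := Or.inl rfl
  neg_mem' := by
    rintro x (rfl | hx)
    · left; simp
    · by_cases hx0 : x = 0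
      · left; rw [hx0, neg_zero]
      right
      rw [h.neg hx0]
      exact hx
  mem_or_inv_mem' := by
    intro x
    by_cases hx0 : x = 0
    · left; left; exact hx0
    rcases le_total 0 (w x) with h1 | h1
    · left; right; exact h1
    · right; right
      rw [h.inv hx0]
      omega

theorem mem_vs {x : F} : x ∈ h.vs ↔ x = 0 ∨ 0 ≤ w x := Iff.rfl

theorem val_eq_one_iff {x : F} (hx : x ≠ 0) : h.vs.valuation x = 1 ↔ w x = 0 := by
  have h1 : h.vs.valuation x ≤ 1 ↔ 0 ≤ w x := by
    rw [ValuationSubring.valuation_le_one_iff, h.mem_vs]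
    exact ⟨fun hh => hh.resolve_left hx, Or.inr⟩
  have h2 : h.vs.valuation x⁻¹ ≤ 1 ↔ 0 ≤ w x⁻¹ := by
    rw [ValuationSubring.valuation_le_one_iff, h.mem_vs]
    exact ⟨fun hh => hh.resolve_left (inv_ne_zero hx), Or.inr⟩
  rw [map_inv₀, inv_le_one₀ (zero_lt_iff.mpr ((Valuation.ne_zero_iff _).mpr hx)), h.inv hx] at h2
  constructor
  · intro he
    have := h1.1 he.le
    have := h2.1 he.ge
    omega
  · intro he
    exact le_antisymm (h1.2 (by omega)) (h2.2 (by omega))

theorem val_lt_one_iff {x : F} (hx : x ≠ 0) : h.vs.valuation x < 1 ↔ 0 < w x := by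
  have h2 : h.vs.valuation x⁻¹ ≤ 1 ↔ 0 ≤ w x⁻¹ := by
    rw [ValuationSubring.valuation_le_one_iff, h.mem_vs]
    exact ⟨fun hh => hh.resolve_left (inv_ne_zero hx), Or.inr⟩
  rw [map_inv₀, inv_le_one₀ (zero_lt_iff.mpr ((Valuation.ne_zero_iff _).mpr hx)), h.inv hx] at h2
  rw [← not_le, h2]
  omega

/-- equal valuations ⟹ equal orders. -/
theorem eq_of_val_eq {x y : F} (hx : x ≠ 0) (hy : y ≠ 0)
    (he : h.vs.valuation x = h.vs.valuation y) : w x = w y := by
  have hq : h.vs.valuation (x / y) = 1 := by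
    rw [map_div₀, he]
    exact div_self ((Valuation.ne_zero_iff _).mpr hy)
  have h0 := (h.val_eq_one_iff (div_ne_zero hx hy)).1 hq
  rw [h.div hx hy] at h0
  omega

end m59rtk_IsOrd

section

variable {F κ : Type*} [Field F] [Field κ] (φ : F →+* κ) (w : F → ℤ) (v : κ → ℤ)

/-- **THE KUMMER LEMMA, `ord`-function form** (the literal consumer shape of [RIGID-T]). -/
theorem m59rtk_kummer
    (hv_mul : ∀ x y : κ, x ≠ 0 → y ≠ 0 → v (x * y) = v x + v y)
    (hv_add : ∀ x y : κ, x ≠ 0 → y ≠ 0 → x + y ≠ 0 → min (v x) (v y) ≤ v (x + y))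
    (hw_mul : ∀ x y : F, x ≠ 0 → y ≠ 0 → w (x * y) = w x + w y)
    (hw_add : ∀ x y : F, x ≠ 0 → y ≠ 0 → x + y ≠ 0 → min (w x) (w y) ≤ w (x + y))
    (hv_one : ∃ z : κ, z ≠ 0 ∧ v z = 1)
    (T : ℕ) (hT : ∀ x : F, x ≠ 0 → v (φ x) = (T : ℤ) * w x)
    (a : F) (ha0 : a ≠ 0) (ha : w a = 0) (s : κ) (hs : s ^ 2 = φ a) (h2 : (2 : κ) ≠ 0)
    (hw2 : w 2 = 0)
    (hgen : ∀ z : κ, ∃ x y : F, z = φ x + φ y * s) : T = 1 := by
  have hv : m59rtk_IsOrd v := ⟨hv_mul, hv_add⟩
  have hw : m59rtk_IsOrd w := ⟨hw_mul, hw_add⟩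
  have hφ0 : ∀ {x : F}, x ≠ 0 → φ x ≠ 0 := fun hx => (map_ne_zero φ).mpr hx
  have h2F : (2 : F) ≠ 0 := by
    intro h0
    apply h2
    have := congrArg φ h0
    rwa [map_ofNat, map_zero] at this
  have hss : s * s = φ a := by rw [← sq]; exact hs
  have hs0 : s ≠ 0 := by
    intro h0
    rw [h0, mul_zero] at hss
    exact hφ0 ha0 hss.symm
  have hvs : v s = 0 := by
    have h1 := hv.mul s s hs0 hs0
    rw [hss, hT a ha0, ha, mul_zero] at h1
    omega
  have hconj : ∀ x y : F, (φ x + φ y * s) * (φ x - φ y * s) = φ (x * x - y * y * a) := by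
    intro x y
    rw [map_sub, map_mul, map_mul, map_mul, ← hss]; ring
  obtain ⟨z₁, hz₁0, hz₁⟩ := hv_one
  -- `T ≠ 0`
  have hT0 : 0 < T := by
    rcases Nat.eq_zero_or_pos T with hT0 | hT0
    · exfalso
      have hv0 : ∀ x : F, x ≠ 0 → v (φ x) = 0 := fun x hx => by rw [hT x hx, hT0]; simp
      obtain ⟨x, y, hxy⟩ := hgen z₁
      by_cases hx0 : x = 0
      · have hy0 : y ≠ 0 := by
          rintro rfl
          rw [hx0, map_zero, zero_mul, add_zero] at hxy
          exact hz₁0 hxy
        rw [hxy, hx0, map_zero, zero_add, hv.mul _ _ (hφ0 hy0) hs0, hv0 y hy0, hvs] at hz₁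
        omega
      by_cases hN : x * x - y * y * a = 0
      · have h1 := hconj x y
        rw [hN, map_zero, ← hxy] at h1
        have h3 : φ x - φ y * s = 0 := (mul_eq_zero.mp h1).resolve_left hz₁0
        have h4 : z₁ = φ (2 * x) := by
          rw [hxy, map_mul, map_ofNat]; linear_combination -h3
        rw [h4, hv0 _ (mul_ne_zero h2F hx0)] at hz₁
        omega
      · have h1 := hconj x y
        rw [← hxy] at h1
        have hz' : φ x - φ y * s ≠ 0 := by
          intro h0
          rw [h0, mul_zero] at h1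
          exact hφ0 hN h1.symm
        have h3 := hv.mul z₁ _ hz₁0 hz'
        rw [h1, hv0 _ hN, hz₁] at h3
        have h4 : v (φ x - φ y * s) < v z₁ := by omega
        obtain ⟨-, h5⟩ := hv.add_eq_of_lt hz' hz₁0 h4
        have h6 : (φ x - φ y * s) + z₁ = φ (2 * x) := by
          rw [hxy, map_mul, map_ofNat]; ring
        rw [h6, hv0 _ (mul_ne_zero h2F hx0)] at h5
        omega
    · exact hT0
  have hTpos : (0 : ℤ) < (T : ℤ) := by exact_mod_cast hT0
  -- it suffices that `T` divides every value of `v`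
  suffices hdvd : ∀ x y : F, φ x + φ y * s ≠ 0 → (T : ℤ) ∣ v (φ x + φ y * s) by
    obtain ⟨x, y, hxy⟩ := hgen z₁
    have h1 := hdvd x y (hxy ▸ hz₁0)
    rw [← hxy, hz₁] at h1
    have h3 : (T : ℤ) = 1 := Int.eq_one_of_dvd_one hTpos.le h1
    exact_mod_cast h3
  by_cases hII : ∃ c : F, c ≠ 0 ∧ w c = 0 ∧ (s - φ c = 0 ∨ 0 < v (s - φ c))
  · -- CASE II
    obtain ⟨c, hc0, hc, hsc⟩ := hII
    have hlie : ∀ x : F, φ x ∈ hv.vs ↔ x ∈ hw.vs := by
      intro x
      rw [hv.mem_vs, hw.mem_vs]
      by_cases hx : x = 0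
      · simp [hx]
      · rw [hT x hx]
        constructor
        · rintro (h | h)
          · exact absurd h (hφ0 hx)
          · right
            by_contra hneg
            push Not at hneg
            have : (T : ℤ) * w x < 0 := mul_neg_of_pos_of_neg hTpos hneg
            omega
        · rintro (h | h)
          · exact absurd h hx
          · right
            exact mul_nonneg hTpos.le h
    have hcA : hw.vs.valuation c = 1 := (hw.val_eq_one_iff hc0).2 hc
    have h2A : hw.vs.valuation (2 : F) = 1 := (hw.val_eq_one_iff h2F).2 hw2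
    have hscB : hv.vs.valuation (s - φ c) < 1 := by
      rcases eq_or_ne (s - φ c) 0 with h0 | hne
      · rw [h0, map_zero]; exact zero_lt_one
      · rcases hsc with h | h
        · exact absurd h hne
        · exact (hv.val_lt_one_iff hne).2 h
    intro x y hz
    obtain ⟨t, ht0, hval⟩ := m59rtk_core_signed φ hw.vs hv.vs hlie s a c hss hcA h2A hscB x y hz
    rw [hv.eq_of_val_eq hz (hφ0 ht0) hval, hT t ht0]
    exact dvd_mul_right _ _
  · -- CASE I
    push Not at hII
    intro x y hz
    by_cases hy0 : y = 0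
    · have hx0 : x ≠ 0 := by
        rintro rfl
        rw [hy0, map_zero, zero_mul, add_zero] at hz
        exact hz rfl
      rw [hy0, map_zero, zero_mul, add_zero, hT x hx0]
      exact dvd_mul_right _ _
    by_cases hx0 : x = 0
    · rw [hx0, map_zero, zero_add, hv.mul _ _ (hφ0 hy0) hs0, hvs, add_zero, hT y hy0]
      exact dvd_mul_right _ _
    have hys : v (φ y * s) = (T : ℤ) * w y := by
      rw [hv.mul _ _ (hφ0 hy0) hs0, hvs, add_zero, hT y hy0]
    have hys0 : φ y * s ≠ 0 := mul_ne_zero (hφ0 hy0) hs0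
    rcases lt_trichotomy (w x) (w y) with hlt | heq | hgt
    · have h1 : v (φ x) < v (φ y * s) := by
        rw [hys, hT x hx0]
        exact mul_lt_mul_of_pos_left hlt hTpos
      rw [(hv.add_eq_of_lt (hφ0 hx0) hys0 h1).2, hT x hx0]
      exact dvd_mul_right _ _
    · -- `w x = w y`
      set c' : F := x / y with hc'
      have hc'0 : c' ≠ 0 := div_ne_zero hx0 hy0
      have hwc' : w c' = 0 := by rw [hc', hw.div hx0 hy0]; omega
      have e : φ x + φ y * s = φ y * (s + φ c') := by
        rw [hc', map_div₀]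
        field_simp [hφ0 hy0]
        ring
      have hsc' : s + φ c' ≠ 0 := by
        intro h0
        apply hz
        rw [e, h0, mul_zero]
      have hge : 0 ≤ v (s + φ c') := by
        have h1 := hv.add s (φ c') hs0 (hφ0 hc'0) hsc'
        rw [hvs, hT c' hc'0, hwc', mul_zero, min_self] at h1
        exact h1
      have hle : v (s + φ c') ≤ 0 := by
        have h1 := hII (-c') (neg_ne_zero.mpr hc'0) (by rw [hw.neg hc'0]; exact hwc')
        rw [map_neg, sub_neg_eq_add] at h1
        have := h1.2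
        omega
      rw [e, hv.mul _ _ (hφ0 hy0) hsc', hT y hy0]
      have : v (s + φ c') = 0 := le_antisymm hle hge
      rw [this, add_zero]
      exact dvd_mul_right _ _
    · have h1 : v (φ y * s) < v (φ x) := by
        rw [hys, hT x hx0]
        exact mul_lt_mul_of_pos_left hgt hTpos
      rw [add_comm, (hv.add_eq_of_lt hys0 (hφ0 hx0) h1).2, hys]
      exact dvd_mul_right _ _

end

end Fermat.Agent.M59
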