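/-
M59 / Sink B / cell [RIGID-T] (helper7), file 4: `λ` IS A UNIT AT THE PLACES WITH `j` FINITE.
Tag `m59rt_`.  Namespace `Fermat.Agent.M59`.

`k` a field with `2 ≠ 0`, `4 ∣ M`, `Q'` a place of `lg_F k M = k(j(q^d) : d ∣ M)` with `j ∈ O_{Q'}`:
`m59rt_ord_lam : ord_{Q'} λ = 0`.  (`j t₂² = (t₂ + 256)³` makes `t₂` a unit, `j(q²) t₂ = (t₂ + 16)³`
makes `j(q²)` finite, the Legendre equation makes `λ` finite, and main's `s44udm_leg_units` a unit.)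
-/
import Mathlib
import Fermat.Agent.SS.Model.TwoPrimes
import Fermat.Agent.S44.Res.UDivMain
import Fermat.Agent.M59.SinkB.RigidT.Landen

set_option autoImplicit false
set_option linter.unusedSectionVars false
set_option linter.unusedVariables false

noncomputable section

namespace Fermat.Agent.M59

open Fermat.Agent.SS Fermat.Agent.S44 Fermat.Agent.JT3 Fermat.Agent.S24 ModularCurve AlgebraicCurve

section Val

variable {E : Type*} [Field E] (𝒱 : ValuationSubring E)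

theorem m59rt_val_t2 {j t c : E} (hc : c * 256 = 1) (hcV : c ∈ 𝒱) (hj : j ∈ 𝒱)
    (h : j * t ^ 2 = (t + 256) ^ 3) : t ∈ 𝒱 ∧ t ∉ 𝒱.nonunits := by
  have h256 : (256 : E) ∈ 𝒱 := ofNat_mem 𝒱 256
  have h256u : (256 : E) ∉ 𝒱.nonunits := by
    intro h1
    have := ssm_tp_nonunits_mul 𝒱 h1 hcV
    rw [mul_comm, hc] at this
    exact ssm_tp_one_not_mem_nonunits 𝒱 this
  have htV : t ∈ 𝒱 := by
    by_contra htn
    have ht0 : t ≠ 0 := fun h0 => htn (h0 ▸ 𝒱.zero_mem)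
    have hm : t⁻¹ ∈ 𝒱.nonunits := by
      rw [ValuationSubring.mem_nonunits_iff_or, inv_inv]
      exact Or.inr htn
    have hmV : t⁻¹ ∈ 𝒱 := ValuationSubring.nonunits_subset hm
    have e : t⁻¹ * j = (1 + 256 * t⁻¹) ^ 3 := by
      field_simp
      linear_combination h
    have h1 : (1 + 256 * t⁻¹) ∉ 𝒱.nonunits := by
      intro h2
      have h3 : (1 : E) = (1 + 256 * t⁻¹) + -(t⁻¹ * 256) := by ring
      have h4 : (1 : E) ∈ 𝒱.nonunits := by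
        rw [h3]
        exact ssm_tp_nonunits_add 𝒱 h2 (ssm_tp_nonunits_neg 𝒱 (ssm_tp_nonunits_mul 𝒱 hm h256))
      exact ssm_tp_one_not_mem_nonunits 𝒱 h4
    have h2 := ssm_tp_pow_not_mem 𝒱 h1 3
    rw [← e] at h2
    exact h2 (ssm_tp_nonunits_mul 𝒱 hm hj)
  refine ⟨htV, fun htn => ?_⟩
  have h1 : (t + 256) ^ 3 ∈ 𝒱.nonunits := by
    rw [← h, mul_comm, pow_two, mul_assoc]
    exact ssm_tp_nonunits_mul 𝒱 htn (𝒱.mul_mem _ _ htV hj)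
  have h2 : t + 256 ∈ 𝒱.nonunits := by
    by_contra hnot
    exact ssm_tp_pow_not_mem 𝒱 hnot 3 h1
  have h3 : (256 : E) = (t + 256) + -t := by ring
  apply h256u
  rw [h3]
  exact ssm_tp_nonunits_add 𝒱 h2 (ssm_tp_nonunits_neg 𝒱 htn)

theorem m59rt_val_j2 {j2 t : E} (ht : t ∈ 𝒱) (htu : t ∉ 𝒱.nonunits)
    (h : j2 * t = (t + 16) ^ 3) : j2 ∈ 𝒱 := by
  have ht0 : t ≠ 0 := ssm_tp_ne_zero 𝒱 htu
  have e : j2 = (t + 16) ^ 3 * t⁻¹ := by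
    rw [← h, mul_assoc, mul_inv_cancel₀ ht0, mul_one]
  rw [e]
  exact 𝒱.mul_mem _ _ (𝒱.pow_mem (𝒱.add_mem _ _ ht (ofNat_mem 𝒱 16)) 3) (ssm_tp_inv_mem 𝒱 htu)

theorem m59rt_val_lam {lam j2 c : E} (hc : c * 256 = 1) (hcV : c ∈ 𝒱) (hj : j2 ∈ 𝒱)
    (hleg : 256 * (lam ^ 2 - lam + 1) ^ 3 = j2 * lam ^ 2 * (lam - 1) ^ 2) : lam ∈ 𝒱 := by
  by_contra hn
  have hl0 : lam ≠ 0 := fun h0 => hn (h0 ▸ 𝒱.zero_mem)
  have hm : lam⁻¹ ∈ 𝒱.nonunits := by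
    rw [ValuationSubring.mem_nonunits_iff_or, inv_inv]
    exact Or.inr hn
  have hmV : lam⁻¹ ∈ 𝒱 := ValuationSubring.nonunits_subset hm
  have e : (1 - lam⁻¹ + lam⁻¹ ^ 2) ^ 3 = lam⁻¹ * (c * j2 * (1 - lam⁻¹) ^ 2 * lam⁻¹) := by
    have h1 : (1 - lam⁻¹ + lam⁻¹ ^ 2) ^ 3 = c * 256 * (1 - lam⁻¹ + lam⁻¹ ^ 2) ^ 3 := by
      rw [hc, one_mul]
    rw [h1]
    field_simp
    linear_combination c * hleg
  have h1 : (1 - lam⁻¹ + lam⁻¹ ^ 2) ∉ 𝒱.nonunits := by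
    intro h2
    have h3 : (1 : E) = (1 - lam⁻¹ + lam⁻¹ ^ 2) + lam⁻¹ * (1 - lam⁻¹) := by ring
    have h4 : (1 : E) ∈ 𝒱.nonunits := by
      rw [h3]
      exact ssm_tp_nonunits_add 𝒱 h2 (ssm_tp_nonunits_mul 𝒱 hm (sub_mem 𝒱.one_mem hmV))
    exact ssm_tp_one_not_mem_nonunits 𝒱 h4
  have h2 := ssm_tp_pow_not_mem 𝒱 h1 3
  rw [e] at h2
  refine h2 (ssm_tp_nonunits_mul 𝒱 hm ?_)
  exact 𝒱.mul_mem _ _ (𝒱.mul_mem _ _ (𝒱.mul_mem _ _ hcV hj)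
    (𝒱.pow_mem (sub_mem 𝒱.one_mem hmV) 2)) hmV

end Val

theorem m59rt_ord_lam {k : Type*} [Field k] (h2 : (2 : k) ≠ 0) (M : ℕ) [NeZero M] (h4 : 4 ∣ M)
    (Q' : Place k ↥(lg_F k M)) (hj : jcr_j (k := k) M ∈ Q'.toValuationSubring) :
    Q'.ord (m59rt_lamF (k := k) M h4) = 0 := by
  set 𝒱 := Q'.toValuationSubring with h𝒱
  set t2F : ↥(lg_F k M) := ⟨hm_t2 k, full_degeneracyC_le k h4 (ssm_f4_t2_mem_F4 k)⟩ with ht2F
  set j2F : ↥(lg_F k M) := ⟨qExpand k 2 (jqModC k), full_degeneracyC_le k h4 (ssm_f4_j2_mem k)⟩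
    with hj2F
  have h256k : (256 : k) ≠ 0 := by
    have : (256 : k) = 2 ^ 8 := by norm_num
    rw [this]; exact pow_ne_zero 8 h2
  set c : ↥(lg_F k M) := algebraMap k ↥(lg_F k M) (256 : k)⁻¹ with hcdef
  have hc : c * 256 = 1 := by
    rw [hcdef, ← map_ofNat (algebraMap k ↥(lg_F k M)) 256, ← map_mul, inv_mul_cancel₀ h256k,
      map_one]
  have hcV : c ∈ 𝒱 := Q'.algebraMap_mem' _
  have e1 : jcr_j (k := k) M * t2F ^ 2 = (t2F + 256) ^ 3 := Subtype.ext (hm_t2_id1 k)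
  have e2 : j2F * t2F = (t2F + 16) ^ 3 := Subtype.ext (hm_t2_id2 k)
  have e3 : 256 * (m59rt_lamF (k := k) M h4 ^ 2 - m59rt_lamF M h4 + 1) ^ 3 =
      j2F * m59rt_lamF M h4 ^ 2 * (m59rt_lamF M h4 - 1) ^ 2 := Subtype.ext (hm_legendre k)
  obtain ⟨ht, htu⟩ := m59rt_val_t2 𝒱 hc hcV hj e1
  have hj2 := m59rt_val_j2 𝒱 ht htu e2
  have hlam := m59rt_val_lam 𝒱 hc hcV hj2 e3
  have hu := (s44udm_leg_units 𝒱 hc hcV hlam hj2 e3).1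
  have hl0 : m59rt_lamF (k := k) M h4 ≠ 0 := ssm_tp_ne_zero 𝒱 hu
  have h5 := (hw_mem_iff_ord_nonneg Q' hl0).1 hlam
  have h6 := (hw_mem_iff_ord_nonneg Q' (inv_ne_zero hl0)).1 (ssm_tp_inv_mem 𝒱 hu)
  rw [Q'.ord_inv] at h6
  omega

end Fermat.Agent.M59
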