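/-
M59 / Sink B / cell [RIGID-T] (helper7), file 5: THE MULTIPLIER OF THE LEGENDRE COVER IS ONE at the
places with `j` finite (`4 ∣ M`, `2 ≠ 0`).  Tag `m59rt_`.  Namespace `Fermat.Agent.M59`.

`m59rt_core` : `k` a field with `2 ≠ 0`, `4 ∣ M`, `Q'` a place of `lg_F k M` with `j` finite, `v` a place
of `lg_E k M`, `T : ℕ` with `ord_v (φ y) = T · ord_{Q'} y` for all `y ≠ 0`.  Then `T = 1`.
(`lg_E k M = φ(lg_F k M)(s)`, `s² = φ λ`, `ord_{Q'} λ = 0`: helper18's Kummer lemma `m59rtk_kummer`.)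
-/
import Mathlib
import Fermat.Agent.M59.SinkB.RigidT.KummerOrd
import Fermat.Agent.M59.SinkB.RigidT.Units
import Fermat.Agent.JT3.Riemann.Approx

set_option autoImplicit false
set_option linter.unusedSectionVars false
set_option linter.unusedVariables false

noncomputable section

namespace Fermat.Agent.M59

open Fermat.Agent.SS Fermat.Agent.S44 Fermat.Agent.JT3 Fermat.Agent.S24 ModularCurve AlgebraicCurve

theorem m59rt_core {k : Type*} [Field k] (h2 : (2 : k) ≠ 0) (M : ℕ) [NeZero M] (h4 : 4 ∣ M)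
    (Q' : Place k ↥(lg_F k M)) (v : Place k ↥(lg_E k M)) (T : ℕ)
    (hT : ∀ y : ↥(lg_F k M), y ≠ 0 →
      v.ord (lg_phiE (L := k) (N := M) y) = (T : ℤ) * Q'.ord y)
    (hj : jcr_j (k := k) M ∈ Q'.toValuationSubring) : T = 1 := by
  have hl0 : m59rt_lamF (k := k) M h4 ≠ 0 := fun h =>
    m59rt_lam_ne_zero h2 (congrArg (fun z : ↥(lg_F k M) => (z : LaurentSeries k)) h)
  have h2E : (2 : ↥(lg_E k M)) ≠ 0 := by
    rw [← map_ofNat (algebraMap k ↥(lg_E k M)) 2]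
    exact (map_ne_zero _).2 h2
  have hw2 : Q'.ord (2 : ↥(lg_F k M)) = 0 := by
    rw [← map_ofNat (algebraMap k ↥(lg_F k M)) 2]
    exact hw_ord_algebraMap Q' 2
  have hv1 : ∃ z : ↥(lg_E k M), z ≠ 0 ∧ v.ord z = 1 := by
    obtain ⟨ϖ, hϖ⟩ := IsDiscreteValuationRing.exists_irreducible ↥v.toValuationSubring
    have h1 := v.ord_coe_irreducible hϖ
    refine ⟨(ϖ : ↥(lg_E k M)), ?_, h1⟩
    intro h0
    rw [h0, Place.ord_zero] at h1
    exact zero_ne_one h1
  exact m59rtk_kummer (lg_phiE (L := k) (N := M)).toRingHom (fun y => Q'.ord y)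
    (fun z => v.ord z)
    (fun x y hx hy => v.ord_mul hx hy) (fun x y hx hy hxy => hw_ord_add_ge v hx hy hxy)
    (fun x y hx hy => Q'.ord_mul hx hy) (fun x y hx hy hxy => hw_ord_add_ge Q' hx hy hxy)
    hv1 T hT (m59rt_lamF M h4) hl0 (m59rt_ord_lam h2 M h4 Q' hj)
    (m59rt_sE M h4) (m59rt_sE_sq M h2 h4) h2E hw2 (m59rt_hgen M h2 h4)

end Fermat.Agent.M59
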