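/-
M59 / Sink B / cell [RIGID-T] (helper7), file 1: ABSTRACT TWINS of main's node dictionary
(`S44/Mono/NodeDict.lean`, `S44/Mono/NodeDictNode.lean`, helper12) WITH MULTIPLIER ONE.
Tag `m59rt_`.  Namespace `Fermat.Agent.M59`.

Main's `s44nd_main` / `s44ndn_main` produce `T > 0` and `ν` with `ν (φ b) = T · ord_Q (red b)`; the
multiplier `T` is the one of `s44nd_mult` for the place `v` of `κ` with `O_v = 𝒲`.  Here the extra
hypothesis `hK` ("every multiplier of a place `v` with `O_v = 𝒲` over `Q` is `1`", to be proved in the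
Legendre instance for `4 ∣ M` by the Kummer lemma) gives `ν (φ b) = ord_Q (red b)`.
-/
import Mathlib
import Fermat.Agent.S44.Mono.NodeDictNode

set_option autoImplicit false
set_option linter.unusedSectionVars false
set_option linter.unusedVariables false
set_option linter.style.haveILetI false

namespace Fermat.Agent.M59

open Fermat.Agent.SS Fermat.Agent.JT3 Fermat.Agent.S35 Fermat.Agent.S24 Fermat.Agent.S44
  AlgebraicCurve IsLocalRing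

universe v

section Main

variable {F' : Type*} [Field F'] {A0 : Type*} [CommRing A0] {E' : Type v} [Field E']
  [Algebra A0 E'] (φ : F' →+* E') (W1 : ValuationSubring F') (V1 : ValuationSubring E')
  (hφ : ∀ x : F', φ x ∈ V1 ↔ x ∈ W1)
  {κ0 : Type*} [Field κ0] (red : ↥W1 →+* κ0)
  (hker0 : ∀ z : ↥W1, (z : F') ∈ W1.nonunits → red z = 0)
  {kA : Type*} [Field kA] [Algebra kA κ0] (Q : Place kA κ0)
  {κ : Type*} [Field κ] (r : ↥V1 →+* κ) (hker : ∀ z : ↥V1, (z : E') ∈ V1.nonunits → r z = 0)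
  (𝒲 : ValuationSubring κ)
  (hext : ∀ x : F', φ x ∈ tori_comp V1 r hker 𝒲 ↔
    x ∈ tori_comp W1 red hker0 Q.toValuationSubring)

/-- the rigidity hypothesis: every multiplier of a place `v` of `κ / k` with `O_v = 𝒲` over `Q`
is `1`. -/
def m59rt_MultOne (k : Type*) [Field k] [Algebra k κ] : Prop :=
  ∀ v : Place k κ, v.toValuationSubring = 𝒲 → ∀ T : ℕ, 0 < T →
    (∀ b : ↥W1, IsUnit b → v.ord (r (s44nd_phi1 φ W1 V1 hφ b)) = (T : ℤ) * Q.ord (red b)) → T = 1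

variable {B : Subalgebra A0 E'} [IsFractionRing B E'] [IsNoetherianRing B] [IsIntegrallyClosed B]
  (𝔫 : Ideal B) [h𝔫 : 𝔫.IsPrime]
  (hB : ∀ b ∈ B, b ∈ tori_comp V1 r hker 𝒲)
  (h𝔫eq : ∀ b : B, b ∈ 𝔫 ↔ (b : E') ∈ (tori_comp V1 r hker 𝒲).nonunits)
  {π : A0} (hϖ : algebraMap A0 E' π ∈ V1.nonunits) (hϖ0 : algebraMap A0 E' π ≠ 0)
  (hunif : ∀ z : E', z ≠ 0 → ∃ n : ℤ, ssl_VUnit V1 (z / algebraMap A0 E' π ^ n))

include hφ hext hB h𝔫eq hϖ hϖ0 hunif in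
/-- **twin of `s44nd_main` with multiplier one.** -/
theorem m59rt_nd_main (hsurj : Function.Surjective r)
    (hloc : ∀ z ∈ V1, ∃ b s : B, s ∉ ssm_tp_P B V1 ∧ z * (s : E') = (b : E'))
    (u w : ssl_locSub E' 𝔫)
    (hm : haveI := ssl_loc_isLocalRing (F0 := E') 𝔫
      maximalIdeal (ssl_locSub E' 𝔫) =
        Ideal.span {algebraMap B (ssl_locSub E' 𝔫) (algebraMap A0 B π), u, w})
    (hw : w ∈ ssm_tp_P (ssl_locSub E' 𝔫) V1) (hu : u ∉ ssm_tp_P (ssl_locSub E' 𝔫) V1)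
    {k : Type*} [Field k] [Algebra k κ] (hk : ∀ a : k, algebraMap k κ a ∈ 𝒲)
    (hCFE : ∃ t : ↥W1, Q.ord (red t) = 1)
    (hK : m59rt_MultOne φ W1 V1 hφ red Q r 𝒲 k) :
    haveI := ssl_loc_isLocalRing (F0 := E') 𝔫
    haveI := ssl_loc_isNoetherianRing (F0 := E') 𝔫
    ∃ ν : E' → ℤ,
      (∀ u' w' : ssl_locSub E' 𝔫,
        maximalIdeal (ssl_locSub E' 𝔫) =
          Ideal.span {algebraMap B (ssl_locSub E' 𝔫) (algebraMap A0 B π), u', w'} →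
        w' ∈ ssm_tp_P (ssl_locSub E' 𝔫) V1 →
        s44nu_IsNu (algebraMap B (ssl_locSub E' 𝔫) (algebraMap A0 B π)) u'
          (ssm_tp_P (ssl_locSub E' 𝔫) V1) ν) ∧
      ∀ b : ↥W1, IsUnit b → ν (φ (b : F')) = Q.ord (red b) := by
  haveI := ssl_loc_isLocalRing (F0 := E') 𝔫
  haveI := ssl_loc_isNoetherianRing (F0 := E') 𝔫
  obtain ⟨v, hv⟩ := s44nd_place (k := k) 𝔫 V1 r hker 𝒲 hB h𝔫eq hϖ hsurj hloc u w hm hw hu hk
  subst hv
  obtain ⟨T, hT, hTb⟩ := s44nd_mult φ W1 V1 hφ red hker0 Q r hker v hext hCFE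
  obtain rfl : T = 1 := hK v rfl T hT hTb
  refine ⟨s44mo_nu V1 r v hunif, fun u' w' hm' hw' =>
    s44mp_isNu 𝔫 V1 r hker v hB h𝔫eq hϖ hϖ0 hunif hsurj hloc u' w' hm' hw', fun b hb => ?_⟩
  obtain ⟨c, hc⟩ := hb.exists_right_inv
  have hcF : (b : F') * (c : F') = 1 := congrArg (fun t : ↥W1 => (t : F')) hc
  have hb0 : (b : F') ≠ 0 := left_ne_zero_of_mul_eq_one hcF
  have hcinv : (c : F') = (b : F')⁻¹ := eq_inv_of_mul_eq_one_right hcF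
  have hvu : ssl_VUnit V1 (φ (b : F')) := by
    refine ⟨(map_ne_zero φ).2 hb0, (hφ _).2 b.2, ?_⟩
    rw [← map_inv₀, ← hcinv]
    exact (hφ _).2 c.2
  have h1 := hTb b hb
  rw [Nat.cast_one, one_mul] at h1
  rw [s44mo_nu_unit V1 r v hϖ hϖ0 hunif hvu, ← h1]
  rfl

end Main

section Node

variable {F' : Type*} [Field F'] {A0 : Type*} [CommRing A0] {E' : Type v} [Field E']
  [Algebra A0 E'] (φ : F' →+* E') (W1 : ValuationSubring F') (V1 : ValuationSubring E')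
  (hφ : ∀ x : F', φ x ∈ V1 ↔ x ∈ W1)
  {κ0 : Type*} [Field κ0] (red : ↥W1 →+* κ0)
  (hker0 : ∀ z : ↥W1, (z : F') ∈ W1.nonunits → red z = 0)
  {kA : Type*} [Field kA] [Algebra kA κ0] (Q : Place kA κ0)
  {κ : Type*} [Field κ] (r : ↥V1 →+* κ) (hker : ∀ z : ↥V1, (z : E') ∈ V1.nonunits → r z = 0)
  (𝒲 : ValuationSubring κ)
  (hext : ∀ x : F', φ x ∈ tori_comp V1 r hker 𝒲 ↔
    x ∈ tori_comp W1 red hker0 Q.toValuationSubring)
variable {B B12 : Subalgebra A0 E'} [IsFractionRing B E'] [IsNoetherianRing B]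
  [IsIntegrallyClosed B] (𝔫 : Ideal B) [h𝔫 : 𝔫.IsPrime] (hle : B ≤ B12)
  (hB : ∀ b ∈ B, b ∈ tori_comp V1 r hker 𝒲)
  (h𝔫eq : ∀ b : B, b ∈ 𝔫 ↔ (b : E') ∈ (tori_comp V1 r hker 𝒲).nonunits)
  {π : A0} (hϖ : algebraMap A0 E' π ∈ V1.nonunits) (hϖ0 : algebraMap A0 E' π ≠ 0)
  (hunif : ∀ z : E', z ≠ 0 → ∃ n : ℤ, ssl_VUnit V1 (z / algebraMap A0 E' π ^ n))

include hφ hext hB h𝔫eq hϖ hϖ0 hunif in
/-- **twin of `s44ndn_main` with multiplier one.** -/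
theorem m59rt_ndn_main (hsurj : Function.Surjective r)
    (hloc : ∀ z ∈ V1, ∃ b s : B, s ∉ ssm_tp_P B V1 ∧ z * (s : E') = (b : E'))
    (hB12V : ∀ b ∈ B12, b ∈ V1)
    {P2 : Ideal B12} {u v : E'} {a : A0}
    (h : s44mu_NodeAtU π hle (ssm_tp_P B12 V1) P2 𝔫 u v a)
    (ha : algebraMap A0 E' a ∈ V1.nonunits)
    (huS : u ∈ ssl_locSub E' 𝔫)
    {k : Type*} [Field k] [Algebra k κ] (hk : ∀ a : k, algebraMap k κ a ∈ 𝒲)
    (hCFE : ∃ t : ↥W1, Q.ord (red t) = 1)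
    (hK : m59rt_MultOne φ W1 V1 hφ red Q r 𝒲 k) :
    haveI := ssl_loc_isLocalRing (F0 := E') 𝔫
    haveI := ssl_loc_isNoetherianRing (F0 := E') 𝔫
    ∃ ν : E' → ℤ,
      s44nu_IsNu (algebraMap B (ssl_locSub E' 𝔫) (algebraMap A0 B π))
        (⟨u, huS⟩ : ssl_locSub E' 𝔫) (s44tl_br 𝔫 hle (ssm_tp_P B12 V1)) ν ∧
      ∀ b : ↥W1, IsUnit b → ν (φ (b : F')) = Q.ord (red b) := by
  haveI := ssl_loc_isLocalRing (F0 := E') 𝔫
  haveI := ssl_loc_isNoetherianRing (F0 := E') 𝔫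
  have hpass : ssm_tp_P B V1 ≤ 𝔫 := s44ndn_pass V1 r hker 𝒲 𝔫 hB h𝔫eq
  obtain ⟨huS', hvS, hm, hw, hu⟩ := s44ndn_coords 𝔫 hle V1 hB12V hpass hϖ h ha
  obtain ⟨ν, hν, hTb⟩ := m59rt_nd_main φ W1 V1 hφ red hker0 Q r hker 𝒲 hext 𝔫 hB h𝔫eq hϖ hϖ0
    hunif hsurj hloc ⟨u, huS'⟩ ⟨v, hvS⟩ hm hw hu hk hCFE hK
  refine ⟨ν, ?_, hTb⟩
  rw [s44ndn_br_eq 𝔫 hle V1 hB12V hpass]
  exact hν ⟨u, huS'⟩ ⟨v, hvS⟩ hm hw

end Node

end Fermat.Agent.M59
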