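/-
M59 / Sink B / cell [RIGID-T] (helper7), file 2: LEGENDRE TWINS of main's `s44ndl_node`,
`s44ndl_node_A` (`S44/Mono/NodeDictLeg.lean`, helper1) and `s44ndss_at` (`S44/Mono/NodeDictSS.lean`)
WITH MULTIPLIER ONE.  Tag `m59rt_`.  Namespace `Fermat.Agent.M59`.

`m59rt_ss_at` : `Q` supersingular, `L1` a number field as in `s44ndss_at`; if every `𝒲` with
`s44ndl_Ext` satisfies `m59rt_MultOne`, then `ord_Q (ū) = 12`.
-/
import Mathlib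
import Fermat.Agent.S44.Mono.NodeDictSS
import Fermat.Agent.M59.SinkB.RigidT.Abs

set_option autoImplicit false
set_option linter.unusedSectionVars false
set_option linter.style.haveILetI false
set_option linter.unusedVariables false
set_option synthInstance.maxHeartbeats 400000
set_option maxHeartbeats 1600000

noncomputable section

namespace Fermat.Agent.M59

open Polynomial ModularCurve AlgebraicCurve IntermediateField IsLocalRing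
open Fermat.Agent.JT3 Fermat.Agent.SS Fermat.Agent.S35 Fermat.Agent.S24 Fermat.Agent.S28
  Fermat.Agent.MZ Fermat.Agent.S44

section NodeCase

variable (L : Type) [Field L] [NumberField L] [Algebra L (AlgebraicClosure ℚ)]
  (O : ValuationSubring L) [IsDiscreteValuationRing O] {π : O} (hπ : Irreducible π)
variable (N' q : ℕ) [NeZero N'] [NeZero q] [hq : Fact q.Prime] [CharP (ResidueField O) q]
  (hq2 : ¬ 2 ∣ q) (hqN' : ¬ q ∣ N') (ζ : L) (hζ : IsPrimitiveRoot ζ N')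

variable {κ0 : Type*} [Field κ0] (red : ↥(s44mz_VF O hπ N' q) →+* κ0)
  (hker0 : ∀ z : ↥(s44mz_VF O hπ N' q),
    (z : ↥(lg_F L (N' * q))) ∈ (s44mz_VF O hπ N' q).nonunits → red z = 0)
  {kA : Type*} [Field kA] [Algebra kA κ0] (Q : Place kA κ0)
  (𝒲 : ValuationSubring ↥(lg_E (ResidueField O) N'))
  (hext : ∀ x : ↥(lg_F L (N' * q)),
    s44ndl_phi L (N' * q) x ∈ s44ndl_V L O hπ N' q hq2 hqN' 𝒲 ↔
      x ∈ tori_comp (s44mz_VF O hπ N' q) red hker0 Q.toValuationSubring)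

include hζ hext in
/-- **twin of `s44ndl_node` with multiplier one.** -/
theorem m59rt_ndl_node
    (hconst : ∀ a : ↥O, red ⟨algebraMap ↥O ↥(lg_F L (N' * q)) a, s44nlr_const_mem O hπ N' q a⟩ ∈
      Q.toValuationSubring)
    (hjQ : ∃ h : rpz_jF L (N' * q) ∈ s44mz_VF O hπ N' q,
      red ⟨rpz_jF L (N' * q), h⟩ ∈ Q.toValuationSubring)
    (hCFE : ∃ t : ↥(s44mz_VF O hπ N' q), Q.ord (red t) = 1)
    (hSSQ : ∀ b : ↥(lg_F L (N' * q)),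
      b ∈ fc_chart ↥O ({rpz_jF L (N' * q)} : Set ↥(lg_F L (N' * q))) →
      ssm_al_W L N' q hq.out hqN' b ∈ (s44mz_VF O hπ N' q).nonunits →
      ∃ h : b ∈ s44mz_VF O hπ N' q, red ⟨b, h⟩ ∈ Q.toValuationSubring.nonunits)
    (h𝔫 : (s44ndl_n L O hπ N' q hq2 hqN' 𝒲).IsMaximal)
    (hK : m59rt_MultOne (s44ndl_phi L (N' * q)) (s44mz_VF O hπ N' q)
      (ssm_gl_V1 O hπ N' q) (s44nlr_phi_mem_iff O hπ N' q) red Q
      (s44re_r O hπ N' q hq2 hqN') 𝒲 (ResidueField O)) :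
    haveI := (s44ndl_chart_inst O N' q).1
    haveI := (s44ndl_chart_inst O N' q).2.1
    haveI := (s44ndl_chart_inst O N' q).2.2
    haveI := h𝔫.isPrime
    haveI := ssl_loc_isLocalRing (F0 := ↥(lg_E L (N' * q))) (s44ndl_n L O hπ N' q hq2 hqN' 𝒲)
    haveI := ssl_loc_isNoetherianRing (F0 := ↥(lg_E L (N' * q)))
      (s44ndl_n L O hπ N' q hq2 hqN' 𝒲)
    ssm_tp_P (fc_chart ↥O ({lg_lamE (N' * q)} : Set ↥(lg_E L (N' * q))))
        (ssm_gl_V2 O hπ N' q hq2 hqN') ≤ s44ndl_n L O hπ N' q hq2 hqN' 𝒲 ∧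
    ∃ u v : ↥(lg_E L (N' * q)),
      s44mu_NodeAtU π (fc_chart1_le (lg_lamE (N' * q) : ↥(lg_E L (N' * q))))
        (ssm_tp_P (fc_chart ↥O ({lg_lamE (N' * q), (lg_lamE (N' * q))⁻¹} :
          Set ↥(lg_E L (N' * q)))) (ssm_gl_V1 O hπ N' q))
        (ssm_tp_P (fc_chart ↥O ({lg_lamE (N' * q), (lg_lamE (N' * q))⁻¹} :
          Set ↥(lg_E L (N' * q)))) (ssm_gl_V2 O hπ N' q hq2 hqN'))
        (s44ndl_n L O hπ N' q hq2 hqN' 𝒲) u v ((q : ℕ) : ↥O) ∧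
      ∃ (huS : u ∈ ssl_locSub ↥(lg_E L (N' * q)) (s44ndl_n L O hπ N' q hq2 hqN' 𝒲))
        (ν : ↥(lg_E L (N' * q)) → ℤ),
        s44nu_IsNu
          (algebraMap ↥(fc_chart ↥O ({lg_lamE (N' * q)} : Set ↥(lg_E L (N' * q))))
            ↥(ssl_locSub ↥(lg_E L (N' * q)) (s44ndl_n L O hπ N' q hq2 hqN' 𝒲))
            (algebraMap ↥O ↥(fc_chart ↥O ({lg_lamE (N' * q)} : Set ↥(lg_E L (N' * q)))) π))
          (⟨u, huS⟩ : ↥(ssl_locSub ↥(lg_E L (N' * q)) (s44ndl_n L O hπ N' q hq2 hqN' 𝒲)))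
          (s44tl_br (s44ndl_n L O hπ N' q hq2 hqN' 𝒲)
            (fc_chart1_le (lg_lamE (N' * q) : ↥(lg_E L (N' * q))))
            (ssm_tp_P (fc_chart ↥O ({lg_lamE (N' * q), (lg_lamE (N' * q))⁻¹} :
              Set ↥(lg_E L (N' * q)))) (ssm_gl_V1 O hπ N' q))) ν ∧
        ∀ b : ↥(s44mz_VF O hπ N' q), IsUnit b →
          ν (lg_phiE (L := L) (N := N' * q) (b : ↥(lg_F L (N' * q)))) = Q.ord (red b) := by
  haveI := (s44ndl_chart_inst O N' q).1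
  haveI := (s44ndl_chart_inst O N' q).2.1
  haveI := (s44ndl_chart_inst O N' q).2.2
  haveI := h𝔫.isPrime
  haveI := ssl_loc_isLocalRing (F0 := ↥(lg_E L (N' * q))) (s44ndl_n L O hπ N' q hq2 hqN' 𝒲)
  haveI := ssl_loc_isNoetherianRing (F0 := ↥(lg_E L (N' * q)))
    (s44ndl_n L O hπ N' q hq2 hqN' 𝒲)
  have hprime := s44ndl_prime L O hπ N' q hq2 hqN' ζ hζ
  obtain ⟨hO𝒱, hj𝒱, -, hB, -, h𝔫eq, hπ𝔫, hP1⟩ :=
    s44ndl_centre O hπ N' q hq2 hqN' hprime red hker0 Q 𝒲 hext hconst hjQ hCFE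
  -- supersingularity at `𝒱'`
  have hSS : ∀ b : ↥(lg_F L (N' * q)),
      b ∈ fc_chart ↥O ({rpz_jF L (N' * q)} : Set ↥(lg_F L (N' * q))) →
      ssm_al_W L N' q hq.out hqN' b ∈ (s44mz_VF O hπ N' q).nonunits →
      lg_phiE (L := L) (N := N' * q) b ∈ (s44ndl_V L O hπ N' q hq2 hqN' 𝒲).nonunits := by
    intro b hb hWb
    have h1 : b ∈ (tori_comp (s44mz_VF O hπ N' q) red hker0 Q.toValuationSubring).nonunits :=
      (tori_comp_mem_nonunits_iff _ _ _ _).2 (hSSQ b hb hWb)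
    exact (s44nd_nonunits_iff (s44ndl_phi L (N' * q)) (s44mz_VF O hπ N' q)
      (ssm_gl_V1 O hπ N' q) red hker0 Q (s44re_r O hπ N' q hq2 hqN')
      (s44re_r_hker O hπ N' q hq2 hqN') 𝒲 hext b).2 h1
  have hP2 := s44mz_P2_le_chart O hπ N' q hq2 hqN' hprime (s44ndl_V L O hπ N' q hq2 hqN' 𝒲)
    hO𝒱 hj𝒱 hSS
  obtain ⟨u, v, hNode, hfix⟩ := s44mu_node L O hπ N' q hq2 hqN' ζ hζ
    (s44ndl_n L O hπ N' q hq2 hqN' 𝒲) h𝔫 hP1 hP2
  refine ⟨hP2, u, v, hNode, ?_⟩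
  -- the data of `s44ndn_main`
  have hπmax : π ∈ maximalIdeal ↥O := by
    rw [hπ.maximalIdeal_eq]; exact Ideal.mem_span_singleton_self π
  have H1nu : algebraMap ↥O ↥(lg_E L (N' * q)) π ∈ (ssm_gl_V1 O hπ N' q).nonunits :=
    s44ndl_max_mem O hπ N' q hq2 hqN' π hπmax
  have hϖ0 : algebraMap ↥O ↥(lg_E L (N' * q)) π ≠ 0 := s44ndl_pi_ne O hπ N' q
  have ha : algebraMap ↥O ↥(lg_E L (N' * q)) ((q : ℕ) : ↥O) ∈ (ssm_gl_V1 O hπ N' q).nonunits :=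
    s44ndl_max_mem O hπ N' q hq2 hqN' _ (ssm_fln_q_mem L O q)
  have hB12V := s44ndl_B12_le O hπ N' q hq2 hqN' hprime
  have hpass : ssm_tp_P (fc_chart ↥O ({lg_lamE (N' * q)} : Set ↥(lg_E L (N' * q))))
      (ssm_gl_V1 O hπ N' q) ≤ s44ndl_n L O hπ N' q hq2 hqN' 𝒲 := hP1
  obtain ⟨huS, -⟩ := s44ndn_coords (s44ndl_n L O hπ N' q hq2 hqN' 𝒲)
    (fc_chart1_le (lg_lamE (N' * q) : ↥(lg_E L (N' * q)))) (ssm_gl_V1 O hπ N' q) hB12V hpass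
    H1nu hNode ha
  have hk𝒲 := s44ndl_const_mem O hπ N' q hq2 hqN' red hker0 Q 𝒲 hext hconst
  obtain ⟨ν, hν, hTb⟩ := m59rt_ndn_main (s44ndl_phi L (N' * q)) (s44mz_VF O hπ N' q)
    (ssm_gl_V1 O hπ N' q) (s44nlr_phi_mem_iff O hπ N' q) red hker0 Q
    (s44re_r O hπ N' q hq2 hqN') (s44re_r_hker O hπ N' q hq2 hqN') 𝒲 hext
    (s44ndl_n L O hπ N' q hq2 hqN' 𝒲)
    (fc_chart1_le (lg_lamE (N' * q) : ↥(lg_E L (N' * q)))) hB h𝔫eq H1nu hϖ0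
    (s44ndl_unif O hπ N' q) (s44re_r_surjective O hπ N' q hq2 hqN')
    (s44ndl_loc O hπ N' q hq2 hqN' hprime) hB12V hNode ha huS hk𝒲 hCFE hK
  exact ⟨huS, ν, hν, hTb⟩

end NodeCase

section SS

local notation "Qb" => AlgebraicClosure ℚ

variable (A : ValuationSubring Qb) {p : ℕ} [hp : Fact p.Prime] (hA : A.LiesOverPrime p)
  (M : ℕ) [NeZero M] [NeZero p] [NeZero (M * p)] (hpM : ¬ p ∣ M) (hp2 : ¬ 2 ∣ p)

/-- the rigidity hypothesis in the Legendre instance over `L1`. -/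
def m59rt_MultOneA (L1 : IntermediateField ℚ Qb) [NumberField ↥L1]
    [IsDiscreteValuationRing ↥(A.comap (algebraMap L1 Qb))]
    [CharP (ResidueField ↥(A.comap (algebraMap L1 Qb))) p]
    {π : ↥(A.comap (algebraMap L1 Qb))} (hπ : Irreducible π)
    (Q : Place (s44e_kA A) ↥(s44e_FF A M))
    (𝒲 : ValuationSubring ↥(lg_E (ResidueField ↥(A.comap (algebraMap L1 Qb))) M)) : Prop :=
  m59rt_MultOne (s44ndl_phi L1 (M * p)) (s44mz_VF (A.comap (algebraMap L1 Qb)) hπ M p)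
    (ssm_gl_V1 (A.comap (algebraMap L1 Qb)) hπ M p)
    (s44nlr_phi_mem_iff (A.comap (algebraMap L1 Qb)) hπ M p)
    (s44nlr_red A hA M hpM L1 hπ) Q
    (s44re_r (A.comap (algebraMap L1 Qb)) hπ M p hp2 hpM) 𝒲
    (ResidueField ↥(A.comap (algebraMap L1 Qb)))

include hA in
/-- **twin of `s44ndss_at` with multiplier one: `ord_Q (ū) = 12` at a supersingular place.** -/
theorem m59rt_ss_at (L1 : IntermediateField ℚ Qb) [NumberField ↥L1]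
    [IsDiscreteValuationRing ↥(A.comap (algebraMap L1 Qb))]
    [CharP (ResidueField ↥(A.comap (algebraMap L1 Qb))) p]
    {π : ↥(A.comap (algebraMap L1 Qb))} (hπ : Irreducible π)
    (ζ : ↥L1) (hζ : IsPrimitiveRoot ζ M)
    (Q : Place (s44e_kA A) ↥(s44e_FF A M)) (hQ : s44e_IsSS A M p hp.out hpM Q)
    (U1 : ↥(lg_F L1 (M * p)))
    (hU1 : ssm_al_iotaF L1 (M * p) U1 = s44hu_U p (M * p) (s44hu_dvd (rfl : M * p = M * p)))
    (hK : ∀ 𝒲 : ValuationSubring ↥(lg_E (ResidueField ↥(A.comap (algebraMap L1 Qb))) M),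
      s44ndl_Ext A hA M hp2 hpM L1 hπ Q 𝒲 → m59rt_MultOneA A hA M hpM hp2 L1 hπ Q 𝒲) :
    Q.ord (s44e_ubar A M p) = 12 := by
  obtain ⟨𝒲, hext⟩ := s44ndl_exists_ext A hA M hp2 hpM L1 hπ Q
  have hc := s44ndl_centre_A A hA M hp2 hpM L1 hπ ζ hζ Q 𝒲 hext hQ.1
  have h𝔫 : (s44ndl_n L1 (A.comap (algebraMap L1 Qb)) hπ M p hp2 hpM 𝒲).IsMaximal :=
    hc.2.2.2.2.1
  have hP1 := hc.2.2.2.2.2.2.2
  haveI := (s44ndl_chart_inst (A.comap (algebraMap L1 Qb)) M p (L := L1)).1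
  haveI := (s44ndl_chart_inst (A.comap (algebraMap L1 Qb)) M p (L := L1)).2.1
  haveI := (s44ndl_chart_inst (A.comap (algebraMap L1 Qb)) M p (L := L1)).2.2
  haveI := h𝔫.isPrime
  haveI := ssl_loc_isLocalRing (F0 := ↥(lg_E L1 (M * p)))
    (s44ndl_n L1 (A.comap (algebraMap L1 Qb)) hπ M p hp2 hpM 𝒲)
  haveI := ssl_loc_isNoetherianRing (F0 := ↥(lg_E L1 (M * p)))
    (s44ndl_n L1 (A.comap (algebraMap L1 Qb)) hπ M p hp2 hpM 𝒲)
  obtain ⟨hP2, u, v, hU, huS, ν, hν, hunit⟩ :=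
    m59rt_ndl_node L1 (A.comap (algebraMap L1 Qb)) hπ M p hp2 hpM ζ hζ
      (s44nlr_red A hA M hpM L1 hπ) (s44nlr_red_hker A hA M hpM L1 hπ) Q 𝒲 hext
      (s44ndl_hconst A hA M hpM L1 hπ Q) (s44ndl_hjQ A hA M hpM L1 hπ Q hQ.1)
      (s44nlr_hCFE A hA M hpM L1 hπ Q) (s44ndl_hSSQ A hA M hpM L1 hπ Q hQ) h𝔫 (hK 𝒲 hext)
  -- the modular unit
  have hU1' : ((U1 : ↥(lg_F L1 (M * p))) : LaurentSeries L1) = mzb_qi_U L1 p :=
    s44eu_model_coe L1 p (M * p) (s44hu_dvd (rfl : M * p = M * p)) hU1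
  have hmem : U1 ∈ s44mz_VF (A.comap (algebraMap L1 Qb)) hπ M p :=
    (s44mm_mem_VF_iff A hA M L1 hπ U1).2 (s44eu_model_mem A hA M L1 hU1)
  have hu1 : IsUnit (⟨U1, hmem⟩ : ↥(s44mz_VF (A.comap (algebraMap L1 Qb)) hπ M p)) :=
    s44us_model_isUnit A M L1 hπ ⟨U1, hmem⟩ hU1'
  have h12 := s44un_node ↥L1 (A.comap (algebraMap L1 Qb)) hπ M p hp2 hpM ζ hζ U1 hU1'
    (s44ndl_n L1 (A.comap (algebraMap L1 Qb)) hπ M p hp2 hpM 𝒲) hP1 hP2 hU huS ν hν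
  have hred : s44nlr_red A hA M hpM L1 hπ ⟨U1, hmem⟩ = s44e_ubar A M p := by
    rw [s44nlr_red_apply]
    exact s44eu_red_model A hA M hpM L1 hU1 _
  rw [← hred, ← hunit _ hu1]
  exact h12

end SS

end Fermat.Agent.M59
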