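/-
M59 / Sink B / cell [RIGID-T] (helper7), file 6: THE SEAM.  Tag `m59rt_`.  Namespace `Fermat.Agent.M59`.

**`m59rt_rigid`** : `A` over `q` odd, `q ∤ M`, `4 ∣ M`.  At EVERY supersingular place `Q` of `FF_M / kA`
(`s44e_IsSS`) the reduction `ū` of the modular unit has `ord_Q ū = 12`
(main's `s44ndss_at` gives `T · ord_Q ū = 12` with the multiplier `T > 0` of the Legendre cover; for
`4 ∣ M` the cover `lg_E k M / φ (lg_F k M)` is the Kummer extension `s² = φ λ`, `λ` a unit at the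
places with `j` finite, hence `T = 1`: `m59rt_core`).
This is exactly the hypothesis `hT` of the mass inequality `m59ms_mass_ineq_four`.
-/
import Mathlib
import Fermat.Agent.M59.SinkB.RigidT.Leg
import Fermat.Agent.M59.SinkB.RigidT.Core

set_option autoImplicit false
set_option linter.unusedSectionVars false
set_option linter.style.haveILetI false
set_option linter.unusedVariables false
set_option synthInstance.maxHeartbeats 400000
set_option maxHeartbeats 1600000

noncomputable section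

namespace Fermat.Agent.M59

open Polynomial ModularCurve AlgebraicCurve IntermediateField IsLocalRing
open Fermat.Agent.JT3 Fermat.Agent.SS Fermat.Agent.S35 Fermat.Agent.S24 Fermat.Agent.S28
  Fermat.Agent.MZ Fermat.Agent.S44

section SS

local notation "Qb" => AlgebraicClosure ℚ

variable (A : ValuationSubring Qb) {p : ℕ} [hp : Fact p.Prime] (hA : A.LiesOverPrime p)
  (M : ℕ) [NeZero M] [NeZero p] [NeZero (M * p)] (hpM : ¬ p ∣ M) (hp2 : ¬ 2 ∣ p)

include hA in
/-- **the multiplier of the Legendre cover is one** (`4 ∣ M`, `j̄` finite at `Q`). -/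
theorem m59rt_multOneA (h4 : 4 ∣ M) (L1 : IntermediateField ℚ Qb) [NumberField ↥L1]
    [IsDiscreteValuationRing ↥(A.comap (algebraMap L1 Qb))]
    [CharP (ResidueField ↥(A.comap (algebraMap L1 Qb))) p]
    {π : ↥(A.comap (algebraMap L1 Qb))} (hπ : Irreducible π)
    (Q : Place (s44e_kA A) ↥(s44e_FF A M))
    (hj : jcr_j (k := s44e_kA A) M ∈ Q.toValuationSubring)
    (𝒲 : ValuationSubring ↥(lg_E (ResidueField ↥(A.comap (algebraMap L1 Qb))) M)) :
    m59rt_MultOneA A hA M hpM hp2 L1 hπ Q 𝒲 := by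
  intro v hv T hT hTb
  obtain ⟨Q', hQ'mem, -, hord⟩ := s44mi_restrict_F_kA A hA (s44nlr_kappa A L1) M Q
  refine m59rt_core (k := ResidueField ↥(A.comap (algebraMap L1 Qb)))
    (s44re_two_ne_zero (A.comap (algebraMap L1 Qb)) p hp2) M h4 Q' v T ?_ ?_
  · intro y hy
    obtain ⟨b, rfl⟩ := s44nlr_resF_surjective (A.comap (algebraMap L1 Qb)) hπ M p hpM y
    have hbu : IsUnit b := by
      by_contra hnu
      apply hy
      rw [s44nlr_resF_eq_zero_iff, ValuationSubring.mem_nonunits_iff_exists_mem_maximalIdeal]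
      exact ⟨b.2, (IsLocalRing.mem_maximalIdeal _).2 hnu⟩
    have h1 := hTb b hbu
    have e1 : s44re_r (A.comap (algebraMap L1 Qb)) hπ M p hp2 hpM
        (s44nd_phi1 (s44ndl_phi L1 (M * p)) (s44mz_VF (A.comap (algebraMap L1 Qb)) hπ M p)
          (ssm_gl_V1 (A.comap (algebraMap L1 Qb)) hπ M p)
          (s44nlr_phi_mem_iff (A.comap (algebraMap L1 Qb)) hπ M p) b) =
        lg_phiE (L := ResidueField ↥(A.comap (algebraMap L1 Qb))) (N := M)
          (s44nlr_resF (A.comap (algebraMap L1 Qb)) hπ M p hpM b) :=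
      s44re_r_phiE (A.comap (algebraMap L1 Qb)) hπ M p hp2 hpM
        (b : ↥(lg_F L1 (M * p))) b.2 _
    rw [e1, s44nlr_red_eq, hord] at h1
    exact h1
  · rw [← hQ'mem]
    have e : s44mi_iotaF (s44nlr_kappa A L1) M
        (jcr_j (k := ResidueField ↥(A.comap (algebraMap L1 Qb))) M) =
        jcr_j (k := s44e_kA A) M := Subtype.ext (coeffMap_jqModC _)
    rw [e]
    exact hj

include hA hp2 in
/-- **[RIGID-T]**: for `4 ∣ M` the modular unit has order EXACTLY `12` at every supersingular place. -/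
theorem m59rt_rigid (h4 : 4 ∣ M) (Q : Place (s44e_kA A) ↥(s44e_FF A M))
    (hQ : s44e_IsSS A M p hp.out hpM Q) : Q.ord (s44e_ubar A M p) = 12 := by
  classical
  obtain ⟨T2, hT2⟩ := s44eu_exists_model p (M * p) (s44hu_dvd (rfl : M * p = M * p))
  obtain ⟨ζ0, hζ0⟩ := HasEnoughRootsOfUnity.exists_primitiveRoot Qb M
  obtain ⟨L1, hfd, -, hT, -⟩ := s44b_exists_nf (M * p) ∅ (T2 ∪ {ζ0})
  haveI : FiniteDimensional ℚ ↥L1 := hfd
  haveI : NumberField ↥L1 := { to_charZero := inferInstance, to_finiteDimensional := hfd }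
  haveI : IsDiscreteValuationRing ↥(A.comap (algebraMap ↥L1 Qb)) :=
    dsc_isDVR_comap_numberField A p hA hp.out.ne_zero ↥L1
  obtain ⟨π, hπ⟩ := IsDiscreteValuationRing.exists_irreducible ↥(A.comap (algebraMap ↥L1 Qb))
  haveI : CharP (ResidueField ↥(A.comap (algebraMap ↥L1 Qb))) p :=
    ss_nfl_charP_residue (lg_natCast_mem_maximalIdeal A hA ↥L1)
  have hT2' : (↑T2 : Set Qb) ⊆ L1 := fun a ha => hT (by
    rw [Finset.mem_coe] at ha ⊢
    exact Finset.mem_union_left _ ha)
  have hζmem : ζ0 ∈ L1 := hT (by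
    rw [Finset.mem_coe]
    exact Finset.mem_union_right _ (Finset.mem_singleton_self ζ0))
  have hζ : IsPrimitiveRoot (⟨ζ0, hζmem⟩ : ↥L1) M :=
    (IsPrimitiveRoot.map_iff_of_injective (f := algebraMap ↥L1 Qb)
      (FaithfulSMul.algebraMap_injective ↥L1 Qb)).1 hζ0
  obtain ⟨U1, hU1⟩ := hT2 L1 hT2'
  exact m59rt_ss_at A hA M hpM hp2 L1 hπ ⟨ζ0, hζmem⟩ hζ Q hQ U1 hU1
    (fun 𝒲 _ => m59rt_multOneA A hA M hpM hp2 h4 L1 hπ Q hQ.1 𝒲)

end SS

end Fermat.Agent.M59
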