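/-
M59 / Sink B / ADAPTER 2 (helper7): the toric data MODULO CONSTANTS (the intended model of the frame,
helper15 #5395: functions on the supersingular places with values in the roots of unity of `kA`, modulo
constants).  Tag `m59rt_`.  Namespace `Fermat.Agent.M59`.

* `m59rt_card_tors_units` : `k` algebraically closed, `p ≠ char k`: `#(kˣ)[p^n] = p^n`;
* `m59rt_ModConst S G = (S → G) ⧸ constants`, `m59rt_modConstEquiv s0 : _ ≃+ ({s ≠ s0} → G)`,
  `m59rt_finrank_modConst` : `T_p` free of rank `#S - 1` when `#G[p^n] = p^n`;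
* `m59rt_mass_modConst`, `m59rt_mass_units` : the cell `m59sb_Mass N' q p A1` for
  `A1 = m59rt_ModConst Sg G`, resp. `G = Additive kAˣ` (`4 ∣ N'`, `q` odd, `q ∤ N'`, `q ≠ p`).
-/
import Mathlib
import Fermat.Agent.M59.SinkB.RigidT.Adapter

set_option autoImplicit false
set_option linter.unusedSectionVars false
set_option linter.style.haveILetI false
set_option linter.unusedVariables false

noncomputable section

namespace Fermat.Agent.M59

open Module ModularCurve AlgebraicCurve IsLocalRing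
open Fermat.Agent.JT3 Fermat.Agent.S44

local notation "Qb" => AlgebraicClosure ℚ

theorem m59rt_card_tors_units (k : Type*) [Field k] [IsAlgClosed k] (p : ℕ) [hp : Fact p.Prime]
    (hpk : (p : k) ≠ 0) (n : ℕ) :
    Nat.card {g : Additive kˣ // p ^ n • g = 0} = p ^ n := by
  haveI : NeZero (p : k) := ⟨hpk⟩
  haveI : NeZero (p ^ n) := ⟨pow_ne_zero n hp.out.ne_zero⟩
  have e : {g : Additive kˣ // p ^ n • g = 0} ≃ rootsOfUnity (p ^ n) k :=
    { toFun := fun g => ⟨Additive.toMul g.1, by
        rw [mem_rootsOfUnity]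
        exact congrArg Additive.toMul g.2⟩
      invFun := fun z => ⟨Additive.ofMul z.1, by
        have := (mem_rootsOfUnity _ _).1 z.2
        exact congrArg Additive.ofMul this⟩
      left_inv := fun g => rfl
      right_inv := fun z => rfl }
  rw [Nat.card_congr e, HasEnoughRootsOfUnity.natCard_rootsOfUnity]

section ModConst

variable (S : Type) [Fintype S] [DecidableEq S] (G : Type) [AddCommGroup G]

/-- the constant functions. -/
def m59rt_Const : AddSubgroup (S → G) where
  carrier := {a | ∃ c : G, a = fun _ => c}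
  zero_mem' := ⟨0, rfl⟩
  add_mem' := by
    rintro _ _ ⟨c, rfl⟩ ⟨d, rfl⟩
    exact ⟨c + d, rfl⟩
  neg_mem' := by
    rintro _ ⟨c, rfl⟩
    exact ⟨-c, rfl⟩

/-- the functions `S → G` modulo the constants. -/
abbrev m59rt_ModConst : Type := (S → G) ⧸ m59rt_Const S G

variable {S G}

/-- normalising at `s0`. -/
def m59rt_normAt (s0 : S) : (S → G) →+ ({s : S // s ≠ s0} → G) where
  toFun a := fun t => a t.1 - a s0
  map_zero' := by funext t; simp
  map_add' a b := by funext t; simp only [Pi.add_apply]; abel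

theorem m59rt_normAt_surjective (s0 : S) : Function.Surjective (m59rt_normAt (G := G) s0) := by
  intro f
  refine ⟨fun s => if h : s = s0 then 0 else f ⟨s, h⟩, ?_⟩
  funext t
  show (if h : t.1 = s0 then 0 else f ⟨t.1, h⟩) - (if h : s0 = s0 then 0 else f ⟨s0, h⟩) = f t
  rw [dif_neg t.2, dif_pos rfl, sub_zero]

theorem m59rt_normAt_ker (s0 : S) : (m59rt_normAt (G := G) s0).ker = m59rt_Const S G := by
  ext a
  rw [AddMonoidHom.mem_ker]
  constructor
  · intro h
    refine ⟨a s0, ?_⟩
    funext s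
    by_cases hs : s = s0
    · rw [hs]
    · have := congrFun h ⟨s, hs⟩
      exact sub_eq_zero.1 this
  · rintro ⟨c, rfl⟩
    funext t
    show c - c = 0
    exact sub_self c

/-- the map induced by `m59rt_normAt` on the quotient. -/
def m59rt_modConstHom (s0 : S) : m59rt_ModConst S G →+ ({s : S // s ≠ s0} → G) :=
  QuotientAddGroup.lift (m59rt_Const S G) (m59rt_normAt s0) (fun a ha => by
    rw [← m59rt_normAt_ker s0] at ha
    exact ha)

theorem m59rt_modConstHom_mk (s0 : S) (a : S → G) :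
    m59rt_modConstHom s0 (QuotientAddGroup.mk a : m59rt_ModConst S G) = m59rt_normAt s0 a := rfl

theorem m59rt_modConstHom_bijective (s0 : S) :
    Function.Bijective (m59rt_modConstHom (G := G) s0) := by
  constructor
  · rw [injective_iff_map_eq_zero]
    intro x hx
    obtain ⟨a, rfl⟩ := QuotientAddGroup.mk_surjective x
    rw [m59rt_modConstHom_mk] at hx
    have ha : a ∈ m59rt_Const S G := by
      rw [← m59rt_normAt_ker s0]
      exact hx
    exact (QuotientAddGroup.eq_zero_iff a).2 ha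
  · intro f
    obtain ⟨a, ha⟩ := m59rt_normAt_surjective s0 f
    exact ⟨QuotientAddGroup.mk a, by rw [m59rt_modConstHom_mk, ha]⟩

/-- `(S → G) / constants ≃ ({s ≠ s0} → G)`. -/
def m59rt_modConstEquiv (s0 : S) : m59rt_ModConst S G ≃+ ({s : S // s ≠ s0} → G) :=
  AddEquiv.ofBijective (m59rt_modConstHom s0) (m59rt_modConstHom_bijective s0)

theorem m59rt_card_tors_modConst (s0 : S) (p : ℕ)
    (hG : ∀ n, Nat.card {g : G // p ^ n • g = 0} = p ^ n) (n : ℕ) :
    Nat.card {x : m59rt_ModConst S G // p ^ n • x = 0} = p ^ ((Fintype.card S - 1) * n) := by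
  have e : {x : m59rt_ModConst S G // p ^ n • x = 0} ≃
      {y : {s : S // s ≠ s0} → G // p ^ n • y = 0} :=
    (m59rt_modConstEquiv s0).toEquiv.subtypeEquiv (fun x => by
      show p ^ n • x = 0 ↔ p ^ n • (m59rt_modConstEquiv s0 x) = 0
      rw [← map_nsmul, map_eq_zero_iff _ (m59rt_modConstEquiv s0).injective])
  rw [Nat.card_congr e, m59rt_card_tors_pi _ p hG n, Fintype.card_subtype_compl,
    Fintype.card_subtype_eq]

theorem m59rt_finrank_modConst (s0 : S) (p : ℕ) [hp : Fact p.Prime]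
    (hG : ∀ n, Nat.card {g : G // p ^ n • g = 0} = p ^ n) :
    Module.Free ℤ_[p] (tm_T (m59rt_ModConst S G) p) ∧
      Module.Finite ℤ_[p] (tm_T (m59rt_ModConst S G) p) ∧
      finrank ℤ_[p] (tm_T (m59rt_ModConst S G) p) = Fintype.card S - 1 :=
  tm_free (Fintype.card S - 1) (m59rt_card_tors_modConst s0 p hG)

end ModConst

/-! ### the cell `m59sb_Mass` for the functions modulo constants -/

section MassModConst

variable (A : ValuationSubring Qb) {q : ℕ} [hq : Fact q.Prime] (hA : A.LiesOverPrime q)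
  (N' : ℕ) [NeZero N'] [NeZero q] [NeZero (N' * q)] (hqN' : ¬ q ∣ N') (hq2 : ¬ 2 ∣ q)

include hA hq2 in
/-- **`m59sb_Mass` for `A1 = (Sg → G) ⧸ constants`**, `#G[p^n] = p^n`. -/
theorem m59rt_mass_modConst (h4 : 4 ∣ N') (p : ℕ) [hp : Fact p.Prime]
    [Fintype (s44e_Sg A N' q hq.out hqN')] [DecidableEq (s44e_Sg A N' q hq.out hqN')]
    (G : Type) [AddCommGroup G] (hG : ∀ n, Nat.card {g : G // p ^ n • g = 0} = p ^ n) :
    m59sb_Mass N' q p (m59rt_ModConst (s44e_Sg A N' q hq.out hqN') G) := by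
  obtain ⟨s0⟩ := m59rt_nonempty_Sg A hA N' hqN' hq2 h4
  refine m59rt_mass_frame A hA N' hqN' hq2 h4 p _ ?_
  rw [(m59rt_finrank_modConst s0 p hG).2.2, Nat.card_eq_fintype_card]
  have : 1 ≤ Fintype.card (s44e_Sg A N' q hq.out hqN') := Fintype.card_pos_iff.2 ⟨s0⟩
  omega

include hA hq2 in
/-- **`m59sb_Mass` for `A1 = (Sg → kAˣ) ⧸ constants`** (`q ≠ p`). -/
theorem m59rt_mass_units (h4 : 4 ∣ N') (p : ℕ) [hp : Fact p.Prime] (hqp : q ≠ p)
    [Fintype (s44e_Sg A N' q hq.out hqN')] [DecidableEq (s44e_Sg A N' q hq.out hqN')] :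
    m59sb_Mass N' q p
      (m59rt_ModConst (s44e_Sg A N' q hq.out hqN') (Additive (s44e_kA A)ˣ)) := by
  haveI := jcr_charP A hA
  haveI := jcr_isAlgClosed A
  have hpk : ((p : ℕ) : s44e_kA A) ≠ 0 := by
    intro h0
    rw [CharP.cast_eq_zero_iff (s44e_kA A) q p] at h0
    exact hqp ((Nat.prime_dvd_prime_iff_eq hq.out hp.out).1 h0)
  exact m59rt_mass_modConst A hA N' hqN' hq2 h4 p _
    (m59rt_card_tors_units (s44e_kA A) p hpk)

end MassModConst

end Fermat.Agent.M59
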