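/-
M59 / Sink B, cell [RIGID-T], sub-cell (e) THE KUMMER LEMMA, `Place` form (helper18).
Prefix `m59rtk_`.

`ι : K →+* L` fields, `Q` a place of `K`, `v` a place of `L` over `Q`
(`ι x ∈ O_v ↔ x ∈ O_Q`), `L = ι K + ι K · s`, `s² = ι a`, `a ≡ c²` modulo `𝔪_Q` for a unit `c` at
`Q`, and `2` a unit at `Q`.  Then `v / Q` is unramified:

* `m59rtk_ord_eq`      : `ord_v (ι t) = ord_Q t` for every `t : K`;
* `m59rtk_mult_eq_one` : any multiplier `T` with `ord_v ∘ ι = T · ord_Q` is `1`.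

(The multiplier of `s44nd_mult` / `s44h2_NDAt` is such a `T`.)
-/
import Mathlib
import Fermat.Agent.M59.SinkB.RigidT.Kummer
import Fermat.Agent.S24.Hurwitz.Places

set_option autoImplicit false
set_option linter.unusedSectionVars false

namespace Fermat.Agent.M59

open AlgebraicCurve Fermat.Agent.S24

section

variable {k K : Type*} [Field k] [Field K] [Algebra k K] (Q : Place k K)

theorem m59rtk_val_le_one_iff {f : K} (hf : f ≠ 0) :
    Q.toValuationSubring.valuation f ≤ 1 ↔ 0 ≤ Q.ord f := by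
  rw [ValuationSubring.valuation_le_one_iff]
  exact hw_mem_iff_ord_nonneg Q hf

theorem m59rtk_val_lt_one_iff {f : K} (hf : f ≠ 0) :
    Q.toValuationSubring.valuation f < 1 ↔ 0 < Q.ord f := by
  have h1 := m59rtk_val_le_one_iff Q (inv_ne_zero hf)
  rw [map_inv₀, Q.ord_inv] at h1
  have hpos : 0 < Q.toValuationSubring.valuation f :=
    zero_lt_iff.mpr ((Valuation.ne_zero_iff _).mpr hf)
  rw [inv_le_one₀ hpos] at h1
  rw [← not_le, h1]
  omega

theorem m59rtk_val_eq_one_iff {f : K} (hf : f ≠ 0) :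
    Q.toValuationSubring.valuation f = 1 ↔ Q.ord f = 0 := by
  have h1 := m59rtk_val_le_one_iff Q hf
  have h2 := m59rtk_val_lt_one_iff Q hf
  constructor
  · intro h
    have h3 : 0 ≤ Q.ord f := h1.1 h.le
    have h4 : ¬ 0 < Q.ord f := fun hlt => (h2.2 hlt).ne h
    omega
  · intro h
    exact le_antisymm (h1.2 (by omega)) (not_lt.mp fun hlt => by have := h2.1 hlt; omega)

/-- equal valuations ⟹ equal orders. -/
theorem m59rtk_ord_eq_of_val_eq {f g : K} (hf : f ≠ 0) (hg : g ≠ 0)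
    (h : Q.toValuationSubring.valuation f = Q.toValuationSubring.valuation g) :
    Q.ord f = Q.ord g := by
  have hq : Q.toValuationSubring.valuation (f * g⁻¹) = 1 := by
    rw [map_mul, map_inv₀, h]
    exact mul_inv_cancel₀ ((Valuation.ne_zero_iff _).mpr hg)
  have h0 := (m59rtk_val_eq_one_iff Q (mul_ne_zero hf (inv_ne_zero hg))).1 hq
  rw [Q.ord_mul hf (inv_ne_zero hg), Q.ord_inv] at h0
  omega

end

section

variable {k k' K L : Type*} [Field k] [Field k'] [Field K] [Field L] [Algebra k K] [Algebra k' L]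
  (ι : K →+* L) (Q : Place k K) (v : Place k' L)
  (hlie : ∀ x : K, ι x ∈ v.toValuationSubring ↔ x ∈ Q.toValuationSubring)

include hlie in
/-- **THE KUMMER LEMMA, `Place` form.** -/
theorem m59rtk_ord_eq (s : L) (a c : K) (hs : s * s = ι a)
    (hgen : ∀ z : L, ∃ x y : K, z = ι x + ι y * s)
    (hc0 : c ≠ 0) (hc : Q.ord c = 0) (hac : a = c * c ∨ 0 < Q.ord (a - c * c))
    (h20 : (2 : K) ≠ 0) (h2 : Q.ord (2 : K) = 0) (t : K) : v.ord (ι t) = Q.ord t := by
  -- the hypotheses in valuation form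
  have hcA : Q.toValuationSubring.valuation c = 1 := (m59rtk_val_eq_one_iff Q hc0).2 hc
  have h2A : Q.toValuationSubring.valuation (2 : K) = 1 := (m59rtk_val_eq_one_iff Q h20).2 h2
  have hacA : Q.toValuationSubring.valuation (a - c * c) < 1 := by
    rcases hac with h | h
    · rw [h, sub_self, map_zero]; exact zero_lt_one
    · have hne : a - c * c ≠ 0 := by
        intro h0
        rw [h0, Q.ord_zero] at h
        exact lt_irrefl _ h
      exact (m59rtk_val_lt_one_iff Q hne).2 h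
  -- units of `O_Q` go to elements of order `0`
  have hunit : ∀ u : K, u ≠ 0 → Q.ord u = 0 → v.ord (ι u) = 0 := by
    intro u hu0 hu
    have h1 : Q.toValuationSubring.valuation u = 1 := (m59rtk_val_eq_one_iff Q hu0).2 hu
    have h2' := (m59rtk_eq_one_iff ι Q.toValuationSubring v.toValuationSubring hlie u).2 h1
    exact (m59rtk_val_eq_one_iff v ((map_ne_zero ι).mpr hu0)).1 h2'
  -- uniformisers
  obtain ⟨π, hπ⟩ := IsDiscreteValuationRing.exists_irreducible Q.toValuationSubring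
  obtain ⟨τ, hτ⟩ := IsDiscreteValuationRing.exists_irreducible v.toValuationSubring
  have hπ0 : (π : K) ≠ 0 := by
    simpa [ne_eq, ZeroMemClass.coe_eq_zero] using hπ.ne_zero
  have hτ0 : (τ : L) ≠ 0 := by
    simpa [ne_eq, ZeroMemClass.coe_eq_zero] using hτ.ne_zero
  have hιπ0 : ι (π : K) ≠ 0 := (map_ne_zero ι).mpr hπ0
  -- the order of `ι` on `u π ^ n`
  have hform : ∀ t : K, t ≠ 0 → v.ord (ι t) = Q.ord t * v.ord (ι (π : K)) := by
    intro t ht
    obtain ⟨u, hu⟩ := Q.exists_unit_mul_zpow ht hπ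
    have hu0 : ((u : ↥Q.toValuationSubring) : K) ≠ 0 := by
      simp [ne_eq, ZeroMemClass.coe_eq_zero]
    have e : ι t = ι ((u : ↥Q.toValuationSubring) : K) * (ι (π : K)) ^ (Q.ord t) := by
      conv_lhs => rw [hu]
      rw [map_mul, map_zpow₀]
    rw [e, v.ord_mul ((map_ne_zero ι).mpr hu0) (zpow_ne_zero _ hιπ0), v.ord_zpow,
      hunit _ hu0 (Q.ord_coe_unit u), zero_add]
  -- `ord_v (ι π) = 1`
  obtain ⟨x, y, hxy⟩ := hgen (τ : L)
  have hz : ι x + ι y * s ≠ 0 := hxy ▸ hτ0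
  obtain ⟨t₀, ht₀, hval⟩ := m59rtk_core ι Q.toValuationSubring v.toValuationSubring hlie s a c hs
    hcA hacA h2A x y hz
  have h1 : v.ord (ι t₀) = 1 := by
    rw [← m59rtk_ord_eq_of_val_eq v hz ((map_ne_zero ι).mpr ht₀) hval, ← hxy]
    exact v.ord_coe_irreducible hτ
  have hπmem : ι (π : K) ∈ v.toValuationSubring := (hlie _).2 π.2
  have hnn : 0 ≤ v.ord (ι (π : K)) := (hw_mem_iff_ord_nonneg v hιπ0).1 hπmem
  have hprod : Q.ord t₀ * v.ord (ι (π : K)) = 1 := by rw [← hform t₀ ht₀, h1]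
  have he : v.ord (ι (π : K)) = 1 := by
    have hdvd : v.ord (ι (π : K)) ∣ 1 := Dvd.intro_left _ hprod
    have := Int.eq_one_of_dvd_one hnn hdvd
    exact this
  rcases eq_or_ne t 0 with rfl | ht
  · rw [map_zero, v.ord_zero, Q.ord_zero]
  · rw [hform t ht, he, mul_one]

include hlie in
/-- **the multiplier is `1`.** -/
theorem m59rtk_mult_eq_one (s : L) (a c : K) (hs : s * s = ι a)
    (hgen : ∀ z : L, ∃ x y : K, z = ι x + ι y * s)
    (hc0 : c ≠ 0) (hc : Q.ord c = 0) (hac : a = c * c ∨ 0 < Q.ord (a - c * c))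
    (h20 : (2 : K) ≠ 0) (h2 : Q.ord (2 : K) = 0) (T : ℤ) (t : K) (ht : Q.ord t = 1)
    (hT : v.ord (ι t) = T * Q.ord t) : T = 1 := by
  rw [m59rtk_ord_eq ι Q v hlie s a c hs hgen hc0 hc hac h20 h2 t, ht, mul_one] at hT
  exact hT.symm

end

end Fermat.Agent.M59
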