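/-
M59 / Sink B / cells [RIGID-T] + [MASS-ineq] COMBINED (helper7).  Tag `m59rt_`.
Namespace `Fermat.Agent.M59`.

**`m59rt_mass_four`** (UNCONDITIONAL): `A` over an odd prime `q ∤ M`, `4 ∣ M`  ⟹
      `#Sg - 1 ≤ genusFormula (M q) - 2 · genusFormula M`
(`Sg = s44e_Sg A M q` the supersingular places of `FF_M / kA`): `m59ms_mass_ineq_four` fed with
`m59rt_rigid`.  Also the natural-number count `m59rt_count_four : 12 · #Sg ≤ (q - 1) ψ(M)`.
-/
import Mathlib
import Fermat.Agent.M59.SinkB.Mass.Main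
import Fermat.Agent.M59.SinkB.RigidT.Main

set_option autoImplicit false
set_option linter.unusedSectionVars false
set_option linter.style.haveILetI false
set_option linter.unusedVariables false

noncomputable section

namespace Fermat.Agent.M59

open ModularCurve AlgebraicCurve IsLocalRing
open Fermat.Agent.JT3 Fermat.Agent.S44

local notation "Qb" => AlgebraicClosure ℚ

section Mass

variable (A : ValuationSubring Qb) {q : ℕ} [hq : Fact q.Prime] (hA : A.LiesOverPrime q)
  (M : ℕ) [NeZero M] [NeZero q] [NeZero (M * q)] (hqM : ¬ q ∣ M) (hq2 : ¬ 2 ∣ q)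

include hA hqM hq2 in
/-- **the mass inequality for `4 ∣ M`, unconditional.** -/
theorem m59rt_mass_four (h4 : 4 ∣ M) :
    (Nat.card (s44e_Sg A M q hq.out hqM) : ℚ) - 1 ≤
      genusFormula (M * q) - 2 * genusFormula M :=
  m59ms_mass_ineq_four A hA M hqM hq2 h4 (m59rt_rigid A hA M hqM hq2 h4)

include hA hqM hq2 in
/-- **the supersingular count for `4 ∣ M`, unconditional**: `12 · #Sg ≤ (q - 1) ψ(M)`. -/
theorem m59rt_count_four (h4 : 4 ∣ M) :
    12 * Nat.card (s44e_Sg A M q hq.out hqM) ≤ (q - 1) * dedekindPsi M :=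
  m59ms_count A hA M hqM hq2 (m59rt_rigid A hA M hqM hq2 h4)

end Mass

end Fermat.Agent.M59

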